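import Fermat.Agent.TW.G.Dickson.Final

/-!
# TW-G / P9 G-dickson, pieces DkB and DkB' (helper26)

Centraliser and normaliser of a nontrivial upper unipotent element of `G ≤ SL₂(k)`, and their
orders.
-/

set_option autoImplicit false
set_option linter.unnecessarySeqFocus false

namespace Fermat.Agent.TW.G.Dk

open Matrix Polynomial Subgroup Fermat.Agent.TW.G.Sel

variable {k : Type} [Field k]

lemma gdkb_comm_uU_iff (Y : M2 k) (x : k) (hx : x ≠ 0) :
    uU x * Y = Y * uU x ↔ Y 1 0 = 0 ∧ Y 0 0 = Y 1 1 := by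
  constructor
  · intro h
    have h00 := congrFun (congrFun h 0) 0
    have h01 := congrFun (congrFun h 0) 1
    simp only [uU, Matrix.mul_apply, Fin.sum_univ_two, Matrix.of_apply, Matrix.cons_val',
      Matrix.cons_val_zero, Matrix.cons_val_one, Matrix.empty_val', Matrix.cons_val_fin_one,
      one_mul, mul_one, mul_zero, add_zero] at h00 h01
    have h10 : Y 1 0 = 0 := by
      have : x * Y 1 0 = 0 := by linear_combination h00
      rcases mul_eq_zero.1 this with h | h
      · exact absurd h hx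
      · exact h
    refine ⟨h10, ?_⟩
    have : x * (Y 1 1 - Y 0 0) = 0 := by linear_combination h01
    rcases mul_eq_zero.1 this with h | h
    · exact absurd h hx
    · exact (sub_eq_zero.1 h).symm
  · rintro ⟨h10, h00⟩
    ext i j
    fin_cases i <;> fin_cases j <;>
      simp [uU, Matrix.mul_apply, Fin.sum_univ_two, h10, h00] <;> ring

lemma gdkb_sq_eq_one {a : k} (h : a * a = 1) : a = 1 ∨ a = -1 := by
  have : (a - 1) * (a + 1) = 0 := by linear_combination h
  rcases mul_eq_zero.1 this with h | h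
  · left; exact sub_eq_zero.1 h
  · right; exact eq_neg_of_add_eq_zero_left h

lemma gdkb_uU_mem (x : k) {g : GL (Fin 2) k} (hg : g.1 = uU x) : g ∈ dkZUgl k := by
  refine ⟨?_, ?_, Or.inl ?_⟩ <;> rw [hg] <;> simp [uU]

/-- upper triangular matrices normalise `{±u_x}` -/
lemma gdkb_conj_ZU {b w : GL (Fin 2) k} (hb : b ∈ dkBgl k) (hw : w ∈ dkZUgl k) :
    b * w * b⁻¹ ∈ dkZUgl k := by
  change b.1 1 0 = 0 at hb
  obtain ⟨h10, h01, h00⟩ := hw
  have hinv : (b⁻¹ : GL (Fin 2) k).1 = (b.1)⁻¹ := Matrix.coe_units_inv b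
  have hdet : b.1.det ≠ 0 := ((Matrix.isUnit_iff_isUnit_det _).1 b.isUnit).ne_zero
  have hdet' : b.1 0 0 * b.1 1 1 ≠ 0 := by
    rw [Matrix.det_fin_two, hb, mul_zero, sub_zero] at hdet; exact hdet
  have ha : b.1 0 0 ≠ 0 := left_ne_zero_of_mul hdet'
  have hd : b.1 1 1 ≠ 0 := right_ne_zero_of_mul hdet'
  have e : ∀ i j, (b * w * b⁻¹).1 i j =
      (b.1 * w.1 * (b.1.det⁻¹ • !![b.1 1 1, -b.1 0 1; -b.1 1 0, b.1 0 0])) i j := by
    intro i j
    rw [Units.val_mul, Units.val_mul, hinv, Matrix.inv_def, Matrix.adjugate_fin_two,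
      Ring.inverse_eq_inv']
  have hdet2 : b.1.det = b.1 0 0 * b.1 1 1 := by
    rw [Matrix.det_fin_two, hb, mul_zero, sub_zero]
  refine ⟨?_, ?_, ?_⟩
  · rw [e]
    simp [Matrix.mul_apply, Fin.sum_univ_two, hb, h10]
  · rw [e, e]
    simp only [Matrix.mul_apply, Fin.sum_univ_two, Matrix.smul_apply, Matrix.of_apply,
      Matrix.cons_val', Matrix.cons_val_zero, Matrix.cons_val_one, Matrix.empty_val',
      Matrix.cons_val_fin_one, smul_eq_mul, hb, h10, hdet2, ← h01]
    field_simp
    ring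
  · have : (b * w * b⁻¹).1 0 0 = w.1 0 0 := by
      rw [e]
      simp only [Matrix.mul_apply, Fin.sum_univ_two, Matrix.smul_apply, Matrix.of_apply,
        Matrix.cons_val', Matrix.cons_val_zero, Matrix.cons_val_one, Matrix.empty_val',
        Matrix.cons_val_fin_one, smul_eq_mul, hb, h10, hdet2]
      field_simp
      ring
    rw [this]; exact h00

theorem stmtDkB : StmtDkB := by
  intro p _ k _ _ _ G hyp g₀ ⟨x, hx, hg₀⟩
  have hCent : centralizer {g₀} = (dkZUgl k).subgroupOf G := by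
    ext y
    rw [gdk_mem_centralizer_iff, Subgroup.mem_subgroupOf]
    have h1 : g₀ * y = y * g₀ ↔ uU x * y.1.1 = y.1.1 * uU x := by
      constructor
      · intro h
        have := congrArg (fun z : ↥G => z.1.1) h
        simpa [hg₀] using this
      · intro h
        apply Subtype.ext
        apply Units.ext
        show g₀.1.1 * y.1.1 = y.1.1 * g₀.1.1
        rw [hg₀]; exact h
    rw [h1, gdkb_comm_uU_iff _ _ hx]
    constructor
    · rintro ⟨h10, h00⟩
      refine ⟨h10, h00, ?_⟩
      have hdet := hyp.det_one y.1 y.2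
      rw [Matrix.det_fin_two, h10, mul_zero, sub_zero, ← h00] at hdet
      exact gdkb_sq_eq_one hdet
    · rintro ⟨h10, h00, -⟩
      exact ⟨h10, h00⟩
  refine ⟨hCent, ?_⟩
  rw [hCent]
  ext y
  rw [mem_normalizer_iff, Subgroup.mem_subgroupOf]
  constructor
  · intro h
    have hmem : g₀ ∈ (dkZUgl k).subgroupOf G := by
      rw [Subgroup.mem_subgroupOf]; exact gdkb_uU_mem x hg₀
    have h2 := (h g₀).1 hmem
    rw [Subgroup.mem_subgroupOf] at h2
    have h3 : (y.1 * g₀.1 * y.1⁻¹).1 1 0 = 0 := h2.1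
    have h4 := dkf_conj_entry y.1 x
    rw [Units.val_mul, Units.val_mul, hg₀] at h3
    rw [h3, zero_mul] at h4
    have h5 : x * y.1.1 1 0 ^ 2 = 0 := by
      have := congrArg Neg.neg h4
      simpa using this.symm
    rcases mul_eq_zero.1 h5 with h6 | h6
    · exact absurd h6 hx
    · exact pow_eq_zero_iff (by norm_num) |>.1 h6
  · intro hy w
    rw [Subgroup.mem_subgroupOf, Subgroup.mem_subgroupOf]
    constructor
    · intro hw
      exact gdkb_conj_ZU hy hw
    · intro hw
      have hy' : y.1⁻¹ ∈ dkBgl k := (dkBgl k).inv_mem hy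
      have := gdkb_conj_ZU hy' hw
      have e : y.1⁻¹ * ((y * w * y⁻¹ : ↥G) : GL (Fin 2) k) * (y.1⁻¹)⁻¹ = w.1 := by
        simp [mul_assoc]
      rw [e] at this
      exact this

end Fermat.Agent.TW.G.Dk
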