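import Fermat.Agent.TW.G.Dickson.Borel

/-!
# TW-G / P9 G-dickson, piece DkB' (helper26): the orders of `G ∩ {±u_x}` and of `G ∩ B`
-/

set_option autoImplicit false
set_option linter.unnecessarySeqFocus false

namespace Fermat.Agent.TW.G.Dk

open Matrix Polynomial Subgroup Fermat.Agent.TW.G.Sel

variable {k : Type} [Field k]

lemma gdkbc_diag_ne_zero {g : GL (Fin 2) k} (hg : g ∈ dkBgl k) : g.1 0 0 ≠ 0 := by
  change g.1 1 0 = 0 at hg
  have hdet : g.1.det ≠ 0 := ((Matrix.isUnit_iff_isUnit_det _).1 g.isUnit).ne_zero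
  rw [Matrix.det_fin_two, hg, mul_zero, sub_zero] at hdet
  exact left_ne_zero_of_mul hdet

lemma gdkbc_mul_apply {g h : GL (Fin 2) k} (hh : h ∈ dkBgl k) :
    (g * h).1 0 0 = g.1 0 0 * h.1 0 0 := by
  change h.1 1 0 = 0 at hh
  rw [Units.val_mul, Matrix.mul_apply, Fin.sum_univ_two, hh, mul_zero, add_zero]

/-- the upper left entry, as a homomorphism on the upper triangular elements of `G` -/
noncomputable def gdkbcDiag (G : Subgroup (GL (Fin 2) k)) : ↥((dkBgl k).subgroupOf G) →* kˣ where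
  toFun y := Units.mk0 (y.1.1.1 0 0) (gdkbc_diag_ne_zero y.2)
  map_one' := by apply Units.ext; simp
  map_mul' := by
    intro y w
    apply Units.ext
    show ((y.1 * w.1 : ↥G) : GL (Fin 2) k).1 0 0 = y.1.1.1 0 0 * w.1.1.1 0 0
    exact gdkbc_mul_apply w.2

lemma gdkbcDiag_val (G : Subgroup (GL (Fin 2) k)) (y : ↥((dkBgl k).subgroupOf G)) :
    ((gdkbcDiag G y : kˣ) : k) = y.1.1.1 0 0 := rfl

lemma gdkbc_ZU_le_B : dkZUgl k ≤ dkBgl k := fun _ h => h.1

lemma gdkbc_Z_le_ZU : dkZgl k ≤ dkZUgl k := by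
  rintro g (h | h)
  · exact ⟨by rw [h]; simp, by rw [h]; simp, Or.inl (by rw [h]; simp)⟩
  · exact ⟨by rw [h]; simp, by rw [h]; simp, Or.inr (by rw [h]; simp)⟩

lemma gdkbc_uU_pow (x : k) (n : ℕ) : (uU x) ^ n = uU (n * x) := by
  induction n with
  | zero =>
    ext i j
    fin_cases i <;> fin_cases j <;> simp [uU]
  | succ n ih =>
    rw [pow_succ, ih]
    ext i j
    fin_cases i <;> fin_cases j <;> simp [uU, Matrix.mul_apply, Fin.sum_univ_two] <;> ring

/-- if `G` contains some `-u_x` then it contains `-1` -/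
lemma gdkbc_neg_one_mem (p : ℕ) [Fact p.Prime] [CharP k p] (hp2 : p ≠ 2)
    (G : Subgroup (GL (Fin 2) k)) {g : GL (Fin 2) k} (hg : g ∈ G) (hZU : g ∈ dkZUgl k)
    (h00 : g.1 0 0 = -1) : (-1 : GL (Fin 2) k) ∈ G := by
  obtain ⟨h10, h01, -⟩ := hZU
  have hg' : g.1 = -(uU (-(g.1 0 1))) := by
    ext i j
    fin_cases i <;> fin_cases j <;> simp [uU, h10, h00, ← h01]
  have hodd : Odd p := (Fact.out : p.Prime).odd_of_ne_two hp2
  have hpow : (g ^ p).1 = -1 := by
    rw [Units.val_pow_eq_pow_val, hg', hodd.neg_pow, gdkbc_uU_pow, CharP.cast_eq_zero, zero_mul]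
    congr 1
    ext i j
    fin_cases i <;> fin_cases j <;> simp [uU]
  have : g ^ p = -1 := Units.ext (by rw [hpow]; simp)
  rw [← this]
  exact G.pow_mem hg p


/-- `|G ∩ B| = |G ∩ {±u_x}| · #{a²}` -/
theorem gdkbc_card_B (p : ℕ) (G : Subgroup (GL (Fin 2) k)) [Finite k] (hyp : DkHyp p G) :
    Nat.card ((dkBgl k).subgroupOf G) =
      Nat.card ((dkZUgl k).subgroupOf G) * Nat.card (Asq G) := by
  classical
  set sq : ↥((dkBgl k).subgroupOf G) →* kˣ := (powMonoidHom 2).comp (gdkbcDiag G) with hsq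
  have hsqval : ∀ y, ((sq y : kˣ) : k) = (y.1.1.1 0 0) ^ 2 := fun y => rfl
  have h1 := Subgroup.card_mul_index sq.ker
  rw [Subgroup.index_ker] at h1
  have hker : Nat.card sq.ker = Nat.card ((dkZUgl k).subgroupOf G) := by
    rw [← Subgroup.card_map_of_injective (K := sq.ker)
      (Subgroup.subtype_injective ((dkBgl k).subgroupOf G))]
    have hmap : Subgroup.map ((dkBgl k).subgroupOf G).subtype sq.ker =
        (dkZUgl k).subgroupOf G := ?_
    · rw [hmap]
    ext y
    rw [Subgroup.mem_map, Subgroup.mem_subgroupOf]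
    constructor
    · rintro ⟨w, hw, rfl⟩
      have hw1 : sq w = 1 := hw
      have hw2 : (w.1.1.1 0 0) ^ 2 = 1 := by rw [← hsqval, hw1]; rfl
      have hw10 : w.1.1.1 1 0 = 0 := w.2
      have hdet := hyp.det_one w.1.1 w.1.2
      rw [Matrix.det_fin_two, hw10, mul_zero, sub_zero] at hdet
      have h00 : w.1.1.1 0 0 = w.1.1.1 1 1 := by
        have hne : w.1.1.1 0 0 ≠ 0 := left_ne_zero_of_mul (by rw [hdet]; exact one_ne_zero)
        have : w.1.1.1 0 0 * (w.1.1.1 0 0 - w.1.1.1 1 1) = 0 := by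
          linear_combination hw2 - hdet
        rcases mul_eq_zero.1 this with h | h
        · exact absurd h hne
        · exact sub_eq_zero.1 h
      have hw3 : w.1.1.1 0 0 * w.1.1.1 0 0 = 1 := by rw [← pow_two]; exact hw2
      exact ⟨hw10, h00, gdkb_sq_eq_one hw3⟩
    · intro hy
      refine ⟨⟨y, gdkbc_ZU_le_B hy⟩, ?_, rfl⟩
      show sq ⟨y, gdkbc_ZU_le_B hy⟩ = 1
      apply Units.ext
      rw [hsqval]
      rcases hy.2.2 with h | h <;> simp [h]
  have hrange : Nat.card sq.range = Nat.card (Asq G) := by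
    have hmem : ∀ u : sq.range, ((u.1 : kˣ) : k) ∈ Asq G := by
      rintro ⟨u, y, rfl⟩
      exact ⟨y.1.1, y.1.2, y.2, hyp.det_one y.1.1 y.1.2, hsqval y⟩
    refine Nat.card_congr (Equiv.ofBijective (fun u => ⟨((u.1 : kˣ) : k), hmem u⟩) ⟨?_, ?_⟩)
    · intro u v huv
      have : ((u.1 : kˣ) : k) = ((v.1 : kˣ) : k) := congrArg Subtype.val huv
      exact Subtype.ext (Units.ext this)
    · rintro ⟨s, g, hg, h10, hdet, hs⟩
      refine ⟨⟨sq ⟨⟨g, hg⟩, h10⟩, ⟨_, rfl⟩⟩, ?_⟩
      apply Subtype.ext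
      show ((sq ⟨⟨g, hg⟩, h10⟩ : kˣ) : k) = s
      rw [hsqval, hs]
  rw [← h1, hker, hrange]

/-- `|G ∩ {±u_x}| = |G ∩ {±1}| · q` -/
theorem gdkbc_card_ZU (p : ℕ) [Fact p.Prime] [CharP k p] (G : Subgroup (GL (Fin 2) k))
    [Finite k] (hyp : DkHyp p G) :
    Nat.card ((dkZUgl k).subgroupOf G) = Nat.card (dkZ G) * Nat.card (Xset G) := by
  classical
  have hle : (dkZUgl k).subgroupOf G ≤ (dkBgl k).subgroupOf G := fun y hy => gdkbc_ZU_le_B hy
  have hle' : dkZ G ≤ (dkZUgl k).subgroupOf G := fun y hy => gdkbc_Z_le_ZU hy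
  set e : ↥((dkZUgl k).subgroupOf G) →* kˣ := (gdkbcDiag G).comp (Subgroup.inclusion hle) with he
  have heval : ∀ y, ((e y : kˣ) : k) = (y.1.1.1 0 0) := fun y => rfl
  have h1 := Subgroup.card_mul_index e.ker
  rw [Subgroup.index_ker] at h1
  have hker : Nat.card e.ker = Nat.card (Xset G) := by
    have hmat : ∀ w : e.ker, w.1.1.1.1 = uU (w.1.1.1.1 0 1) := by
      intro w
      have hw1 : e w.1 = 1 := w.2
      have h00 : w.1.1.1.1 0 0 = 1 := by rw [← heval, hw1]; rfl
      obtain ⟨h10, h01, -⟩ := w.1.2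
      ext i j
      fin_cases i <;> fin_cases j
      · simpa [uU] using h00
      · simp [uU]
      · simpa [uU] using h10
      · simpa [uU] using (h01.symm.trans h00)
    have hmem : ∀ w : e.ker, w.1.1.1.1 0 1 ∈ Xset G := fun w =>
      ⟨w.1.1.1, w.1.1.2, hmat w⟩
    refine Nat.card_congr (Equiv.ofBijective (fun w => ⟨w.1.1.1.1 0 1, hmem w⟩) ⟨?_, ?_⟩)
    · intro u v huv
      have h01 : u.1.1.1.1 0 1 = v.1.1.1.1 0 1 := congrArg Subtype.val huv
      apply Subtype.ext
      apply Subtype.ext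
      apply Subtype.ext
      apply Units.ext
      rw [hmat u, hmat v, h01]
    · rintro ⟨x, g, hg, hgx⟩
      have hZU : (⟨g, hg⟩ : ↥G) ∈ (dkZUgl k).subgroupOf G := gdkb_uU_mem x hgx
      refine ⟨⟨⟨⟨g, hg⟩, hZU⟩, ?_⟩, ?_⟩
      · show e ⟨⟨g, hg⟩, hZU⟩ = 1
        apply Units.ext
        rw [heval]
        show g.1 0 0 = 1
        rw [hgx]; simp [uU]
      · apply Subtype.ext
        show g.1 0 1 = x
        rw [hgx]; simp [uU]
  have hrange : Nat.card e.range = Nat.card (dkZ G) := by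
    set e' : ↥(dkZ G) →* kˣ := e.comp (Subgroup.inclusion hle') with he'
    have he'val : ∀ y, ((e' y : kˣ) : k) = (y.1.1.1 0 0) := fun y => rfl
    have hinj : Function.Injective e' := by
      rw [injective_iff_map_eq_one]
      intro y hy
      have h00 : y.1.1.1 0 0 = 1 := by rw [← he'val, hy]; rfl
      have hy2 : y.1.1 ∈ dkZgl k := y.2
      apply Subtype.ext
      apply Subtype.ext
      apply Units.ext
      rcases hy2 with h | h
      · exact h
      · exfalso
        rw [h] at h00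
        have h2 : (-1 : k) = 1 := by simpa using h00
        have hp2 := hyp.odd
        have h3 : (2 : k) = 0 := by linear_combination -h2
        have hchar : ((2 : ℕ) : k) = 0 := by exact_mod_cast h3
        rw [CharP.cast_eq_zero_iff k p] at hchar
        have hp : p.Prime := Fact.out
        have := (Nat.prime_dvd_prime_iff_eq hp Nat.prime_two).1 hchar
        exact hp2 this
    have hrr : e.range = e'.range := by
      ext u
      constructor
      · rintro ⟨y, rfl⟩
        have hy3 : y.1.1.1 0 0 = 1 ∨ y.1.1.1 0 0 = -1 := y.2.2.2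
        rcases hy3 with h | h
        · refine ⟨1, ?_⟩
          rw [map_one]
          apply Units.ext
          rw [heval, h]; rfl
        · have hneg : (-1 : GL (Fin 2) k) ∈ G :=
            gdkbc_neg_one_mem p hyp.odd G y.1.2 y.2 h
          have hZ : (⟨-1, hneg⟩ : ↥G) ∈ dkZ G := Or.inr (by simp)
          refine ⟨⟨⟨-1, hneg⟩, hZ⟩, ?_⟩
          apply Units.ext
          rw [he'val, heval, h]
          simp
      · rintro ⟨y, rfl⟩
        exact ⟨Subgroup.inclusion hle' y, rfl⟩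
    rw [hrr]
    exact Nat.card_congr (Equiv.ofInjective e' hinj).symm
  rw [← h1, hker, hrange, mul_comm]

theorem stmtDkB' : StmtDkB' := by
  intro p _ k _ _ _ G hyp
  have h1 := gdkbc_card_ZU p G hyp
  refine ⟨h1, ?_⟩
  rw [gdkbc_card_B p G hyp, h1]

end Fermat.Agent.TW.G.Dk
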