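import Mathlib

/-!
# TW-G / P9 G-dickson, part CE (helper26): the class equation, abstract form

`G` a finite group, `Z` a central subgroup, such that the centraliser of every `g ∉ Z` is abelian.
Then `G ∖ Z` is partitioned into the classes `gdkClass Z g` (elements conjugate into the
centraliser of `g`), of size `(|C(g)| - |Z|)·[G : N(C(g))]`.
-/

set_option autoImplicit false

namespace Fermat.Agent.TW.G.Dk

open Subgroup

variable {G : Type*} [Group G]

/-- the class of `g`: the elements outside `Z` which are conjugate into the centraliser of `g` -/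
def gdkClass (Z : Subgroup G) (g : G) : Set G :=
  {h | h ∉ Z ∧ ∃ x : G, x⁻¹ * h * x ∈ centralizer {g}}

/-- the centraliser hypothesis -/
def GdkCA (Z : Subgroup G) : Prop :=
  ∀ g : G, g ∉ Z → ∀ x y : G, x ∈ centralizer {g} → y ∈ centralizer {g} → x * y = y * x

lemma gdk_mem_centralizer_iff (g x : G) : x ∈ centralizer {g} ↔ g * x = x * g := by
  rw [mem_centralizer_iff]
  constructor
  · intro h; exact h g rfl
  · intro h y hy; rw [Set.mem_singleton_iff] at hy; rw [hy]; exact h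

lemma gdk_self_mem (g : G) : g ∈ centralizer {g} := (gdk_mem_centralizer_iff g g).2 rfl

lemma gdk_le_centralizer {Z : Subgroup G} (hZ : Z ≤ center G) (g : G) : Z ≤ centralizer {g} := by
  intro z hz
  rw [gdk_mem_centralizer_iff]
  exact (mem_center_iff.1 (hZ hz)) g

/-- centralisers of non-central elements of an abelian centraliser coincide -/
lemma gdk_centralizer_eq {Z : Subgroup G} (hCA : GdkCA Z) {g h : G} (hg : g ∉ Z) (hh : h ∉ Z)
    (hmem : h ∈ centralizer {g}) : centralizer {h} = centralizer {g} := by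
  have hgh : g * h = h * g := (gdk_mem_centralizer_iff g h).1 hmem
  ext x
  rw [gdk_mem_centralizer_iff, gdk_mem_centralizer_iff]
  constructor
  · intro hx
    -- x, g ∈ C(h), abelian
    have h1 : x ∈ centralizer {h} := (gdk_mem_centralizer_iff h x).2 hx
    have h2 : g ∈ centralizer {h} := (gdk_mem_centralizer_iff h g).2 hgh.symm
    exact hCA h hh g x h2 h1
  · intro hx
    have h1 : x ∈ centralizer {g} := (gdk_mem_centralizer_iff g x).2 hx
    exact hCA g hg h x hmem h1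

lemma gdk_centralizer_conj (g x : G) :
    ∀ y : G, y ∈ centralizer {x⁻¹ * g * x} ↔ x * y * x⁻¹ ∈ centralizer {g} := by
  intro y
  rw [gdk_mem_centralizer_iff, gdk_mem_centralizer_iff]
  constructor
  · intro h
    have : x * (x⁻¹ * g * x * y) * x⁻¹ = x * (y * (x⁻¹ * g * x)) * x⁻¹ := by rw [h]
    simpa [mul_assoc] using this
  · intro h
    have : x⁻¹ * (g * (x * y * x⁻¹)) * x = x⁻¹ * (x * y * x⁻¹ * g) * x := by rw [h]
    simpa [mul_assoc] using this

lemma gdk_conj_notMem {Z : Subgroup G} (hZ : Z ≤ center G) {h : G} (x : G) :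
    x⁻¹ * h * x ∈ Z ↔ h ∈ Z := by
  constructor
  · intro hx
    have hc := mem_center_iff.1 (hZ hx)
    have h1 : x * (x⁻¹ * h * x) = x⁻¹ * h * x * x := hc x
    have h2 : h * x = x⁻¹ * h * x * x := by
      rw [← h1]; simp [mul_assoc]
    have h3 : h = x⁻¹ * h * x := mul_right_cancel h2
    rw [h3]; exact hx
  · intro hh
    have hc := mem_center_iff.1 (hZ hh)
    have h1 : x⁻¹ * h = h * x⁻¹ := hc x⁻¹
    have : x⁻¹ * h * x = h := by
      rw [h1, mul_assoc, inv_mul_cancel, mul_one]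
    rw [this]; exact hh

lemma gdk_self_mem_class {Z : Subgroup G} {g : G} (hg : g ∉ Z) : g ∈ gdkClass Z g :=
  ⟨hg, 1, by simpa using gdk_self_mem g⟩

/-- membership in the normaliser of the centraliser -/
lemma gdk_conj_mem_iff {Z : Subgroup G} (hZ : Z ≤ center G) (hCA : GdkCA Z) {g h' : G}
    (hg : g ∉ Z) (hh' : h' ∉ Z) (hmem : h' ∈ centralizer {g}) (y : G) :
    y⁻¹ * h' * y ∈ centralizer {g} ↔ y ∈ normalizer (centralizer {g} : Set G) := by
  have hC : centralizer {h'} = centralizer {g} := gdk_centralizer_eq hCA hg hh' hmem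
  constructor
  · intro hy
    have hy' : y⁻¹ * h' * y ∉ Z := fun h => hh' ((gdk_conj_notMem hZ y).1 h)
    have hC' : centralizer {y⁻¹ * h' * y} = centralizer {g} := gdk_centralizer_eq hCA hg hy' hy
    rw [mem_normalizer_iff]
    intro w
    -- w ∈ C(g) ↔ y w y⁻¹ ∈ C(g)
    have := gdk_centralizer_conj h' y w
    rw [hC', hC] at this
    exact this
  · intro hy
    rw [mem_normalizer_iff] at hy
    have := (hy (y⁻¹ * h' * y)).2
    apply this
    have : y * (y⁻¹ * h' * y) * y⁻¹ = h' := by simp [mul_assoc]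
    rw [this]; exact hmem

/-- two classes with a common element coincide -/
lemma gdk_class_eq {Z : Subgroup G} (hZ : Z ≤ center G) (hCA : GdkCA Z) {g g' h : G}
    (hg : g ∉ Z) (hg' : g' ∉ Z) (h1 : h ∈ gdkClass Z g) (h2 : h ∈ gdkClass Z g') :
    gdkClass Z g = gdkClass Z g' := by
  -- it suffices: gdkClass g ⊆ gdkClass g' (symmetric)
  have key : ∀ {a b c : G}, a ∉ Z → b ∉ Z → c ∈ gdkClass Z a → c ∈ gdkClass Z b →
      gdkClass Z a ⊆ gdkClass Z b := by
    intro a b c ha hb hca hcb w hw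
    obtain ⟨hcZ, x, hx⟩ := hca
    obtain ⟨_, y, hy⟩ := hcb
    obtain ⟨hwZ, u, hu⟩ := hw
    refine ⟨hwZ, ?_⟩
    -- C(x⁻¹cx) = C(a), C(y⁻¹cy) = C(b)
    have hx' : x⁻¹ * c * x ∉ Z := fun h => hcZ ((gdk_conj_notMem hZ x).1 h)
    have hy' : y⁻¹ * c * y ∉ Z := fun h => hcZ ((gdk_conj_notMem hZ y).1 h)
    have hCa : centralizer {x⁻¹ * c * x} = centralizer {a} := gdk_centralizer_eq hCA ha hx' hx
    have hCb : centralizer {y⁻¹ * c * y} = centralizer {b} := gdk_centralizer_eq hCA hb hy' hy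
    -- u⁻¹ w u ∈ C(a) = C(x⁻¹ c x); so x u⁻¹ w u x⁻¹ ∈ C(c); so y⁻¹ x u⁻¹ w u x⁻¹ y ∈ C(y⁻¹ c y) = C(b)
    refine ⟨u * x⁻¹ * y, ?_⟩
    rw [← hCb, gdk_centralizer_conj c y]
    rw [← hCa, gdk_centralizer_conj c x] at hu
    have : y * ((u * x⁻¹ * y)⁻¹ * w * (u * x⁻¹ * y)) * y⁻¹ = x * (u⁻¹ * w * u) * x⁻¹ := by
      simp [mul_assoc]
    rw [this]; exact hu
  exact Set.Subset.antisymm (key hg hg' h1 h2) (key hg' hg h2 h1)


/-- the elements of the centraliser outside `Z` -/
lemma gdk_card_diff [Finite G] {Z : Subgroup G} (hZ : Z ≤ center G) (g : G) :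
    Nat.card {c : G // c ∈ centralizer {g} ∧ c ∉ Z} + Nat.card Z =
      Nat.card (centralizer {g}) := by
  classical
  have hle : (Z : Set G) ⊆ (centralizer {g} : Set G) := gdk_le_centralizer hZ g
  have h1 : Nat.card {c : G // c ∈ centralizer {g} ∧ c ∉ Z} =
      ((centralizer {g} : Set G) \ (Z : Set G)).ncard := by
    rw [← Nat.card_coe_set_eq]
    rfl
  have h2 : Nat.card Z = (Z : Set G).ncard := (Nat.card_coe_set_eq _).symm ▸ rfl
  have h3 : Nat.card (centralizer {g}) = (centralizer {g} : Set G).ncard :=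
    (Nat.card_coe_set_eq _).symm ▸ rfl
  rw [h1, h2, h3]
  exact Set.ncard_sdiff_add_ncard_of_subset hle (Set.toFinite _)

/-- **class size**: `|K(g)|·|N(C(g))| = |G|·(|C(g)| - |Z|)`. -/
theorem gdk_card_class [Finite G] {Z : Subgroup G} (hZ : Z ≤ center G) (hCA : GdkCA Z) {g : G}
    (hg : g ∉ Z) :
    Nat.card (gdkClass Z g) * Nat.card (normalizer (centralizer {g} : Set G)) =
      Nat.card G * Nat.card {c : G // c ∈ centralizer {g} ∧ c ∉ Z} := by
  classical
  -- the set of pairs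
  let P := {q : G × G // q.1 ∉ Z ∧ q.2⁻¹ * q.1 * q.2 ∈ centralizer {g}}
  have e1 : P ≃ G × {c : G // c ∈ centralizer {g} ∧ c ∉ Z} :=
    { toFun := fun q => (q.1.2, ⟨q.1.2⁻¹ * q.1.1 * q.1.2, q.2.2,
        fun h => q.2.1 ((gdk_conj_notMem hZ q.1.2).1 h)⟩)
      invFun := fun r => ⟨(r.1 * r.2.1 * r.1⁻¹, r.1), by
        constructor
        · intro h
          apply r.2.2.2
          have := (gdk_conj_notMem hZ (h := r.2.1) r.1⁻¹).2
          have h' : (r.1⁻¹)⁻¹ * r.2.1 * r.1⁻¹ = r.1 * r.2.1 * r.1⁻¹ := by simp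
          rw [← h'] at h
          exact (gdk_conj_notMem hZ r.1⁻¹).1 h
        · have : r.1⁻¹ * (r.1 * r.2.1 * r.1⁻¹) * r.1 = r.2.1 := by simp [mul_assoc]
          show r.1⁻¹ * (r.1 * r.2.1 * r.1⁻¹) * r.1 ∈ centralizer {g}
          rw [this]; exact r.2.2.1⟩
      left_inv := by
        intro q
        apply Subtype.ext
        apply Prod.ext
        · show q.1.2 * (q.1.2⁻¹ * q.1.1 * q.1.2) * q.1.2⁻¹ = q.1.1
          simp [mul_assoc]
        · rfl
      right_inv := by
        intro r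
        apply Prod.ext
        · rfl
        · apply Subtype.ext
          show r.1⁻¹ * (r.1 * r.2.1 * r.1⁻¹) * r.1 = r.2.1
          simp [mul_assoc] }
  -- a chosen conjugator for each element of the class
  have hx0 : ∀ h : gdkClass Z g, ∃ x : G, x⁻¹ * h.1 * x ∈ centralizer {g} := fun h => h.2.2
  choose x0 hx0' using hx0
  have e2 : P ≃ gdkClass Z g × normalizer (centralizer {g} : Set G) :=
    { toFun := fun q => (⟨q.1.1, q.2.1, q.1.2, q.2.2⟩,
        ⟨(x0 ⟨q.1.1, q.2.1, q.1.2, q.2.2⟩)⁻¹ * q.1.2, by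
          set h : gdkClass Z g := ⟨q.1.1, q.2.1, q.1.2, q.2.2⟩ with hh
          have hh' : (x0 h)⁻¹ * h.1 * x0 h ∉ Z := fun hz => q.2.1 ((gdk_conj_notMem hZ _).1 hz)
          rw [← gdk_conj_mem_iff hZ hCA hg hh' (hx0' h)]
          have : ((x0 h)⁻¹ * q.1.2)⁻¹ * ((x0 h)⁻¹ * h.1 * x0 h) * ((x0 h)⁻¹ * q.1.2) =
              q.1.2⁻¹ * q.1.1 * q.1.2 := by
            simp [mul_assoc, hh]
          rw [this]; exact q.2.2⟩)
      invFun := fun r => ⟨(r.1.1, x0 r.1 * r.2.1), by
        refine ⟨r.1.2.1, ?_⟩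
        have hh' : (x0 r.1)⁻¹ * r.1.1 * x0 r.1 ∉ Z :=
          fun hz => r.1.2.1 ((gdk_conj_notMem hZ _).1 hz)
        have := (gdk_conj_mem_iff hZ hCA hg hh' (hx0' r.1) r.2.1).2 r.2.2
        have h2 : (x0 r.1 * r.2.1)⁻¹ * r.1.1 * (x0 r.1 * r.2.1) =
            r.2.1⁻¹ * ((x0 r.1)⁻¹ * r.1.1 * x0 r.1) * r.2.1 := by
          simp [mul_assoc]
        show (x0 r.1 * r.2.1)⁻¹ * r.1.1 * (x0 r.1 * r.2.1) ∈ centralizer {g}
        rw [h2]; exact this⟩
      left_inv := by
        intro q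
        apply Subtype.ext
        apply Prod.ext
        · rfl
        · show x0 _ * ((x0 _)⁻¹ * q.1.2) = q.1.2
          simp
      right_inv := by
        intro r
        apply Prod.ext
        · rfl
        · apply Subtype.ext
          show (x0 r.1)⁻¹ * (x0 r.1 * r.2.1) = r.2.1
          simp }
  have h1 := Nat.card_congr e1
  have h2 := Nat.card_congr e2
  rw [Nat.card_prod] at h1 h2
  rw [← h1, ← h2]


lemma gdk_class_disjoint {Z : Subgroup G} (hZ : Z ≤ center G) (hCA : GdkCA Z) {g g' : G}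
    (hg : g ∉ Z) (hg' : g' ∉ Z) (hne : g' ∉ gdkClass Z g) :
    Disjoint (gdkClass Z g) (gdkClass Z g') := by
  rw [Set.disjoint_left]
  intro h h1 h2
  apply hne
  rw [gdk_class_eq hZ hCA hg hg' h1 h2]
  exact gdk_self_mem_class hg'

lemma gdk_class_subset (Z : Subgroup G) (g : G) : gdkClass Z g ⊆ (Z : Set G)ᶜ :=
  fun _ h => h.1

/-- `2|Z| ≤ |C(g)|` for `g ∉ Z` -/
lemma gdk_two_mul_le [Finite G] {Z : Subgroup G} (hZ : Z ≤ center G) {g : G} (hg : g ∉ Z) :
    2 * Nat.card Z ≤ Nat.card (centralizer {g}) := by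
  have hle : Z ≤ centralizer {g} := gdk_le_centralizer hZ g
  have hdvd : Nat.card Z ∣ Nat.card (centralizer {g}) := Subgroup.card_dvd_of_le hle
  obtain ⟨c, hc⟩ := hdvd
  have hpos : 0 < Nat.card (centralizer {g}) := Nat.card_pos
  have hZpos : 0 < Nat.card Z := Nat.card_pos
  have hc1 : c ≠ 1 := by
    intro h1
    rw [h1, mul_one] at hc
    have : Z = centralizer {g} := Subgroup.eq_of_le_of_card_ge hle hc.le
    exact hg (this ▸ gdk_self_mem g)
  have hc0 : c ≠ 0 := by
    intro h0; rw [h0, mul_zero] at hc; omega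
  have hc2 : 2 ≤ c := by omega
  calc 2 * Nat.card Z = Nat.card Z * 2 := mul_comm _ _
    _ ≤ Nat.card Z * c := Nat.mul_le_mul_left _ hc2
    _ = Nat.card (centralizer {g}) := hc.symm

/-- the normaliser has index 1 or 2 if it has index at most 2 -/
lemma gdk_card_normalizer [Finite G] (C : Subgroup G)
    (hν : Nat.card (normalizer (C : Set G)) ≤ 2 * Nat.card C) :
    Nat.card (normalizer (C : Set G)) = Nat.card C ∨
      Nat.card (normalizer (C : Set G)) = 2 * Nat.card C := by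
  have hdvd : Nat.card C ∣ Nat.card (normalizer (C : Set G)) :=
    Subgroup.card_dvd_of_le le_normalizer
  obtain ⟨c, hc⟩ := hdvd
  have hpos : 0 < Nat.card (normalizer (C : Set G)) := Nat.card_pos
  have hCpos : 0 < Nat.card C := Nat.card_pos
  have hc0 : c ≠ 0 := by
    intro h0; rw [h0, mul_zero] at hc; omega
  have hc2 : c ≤ 2 := by
    by_contra h
    have : 3 ≤ c := by omega
    have : Nat.card C * 3 ≤ Nat.card C * c := Nat.mul_le_mul_left _ this
    omega
  rcases (by omega : c = 1 ∨ c = 2) with h | h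
  · left; rw [hc, h, mul_one]
  · right; rw [hc, h, mul_comm]

/-- every class has at least `|G|/4` elements if the normaliser has index at most 2 -/
lemma gdk_four_mul_class [Finite G] {Z : Subgroup G} (hZ : Z ≤ center G) (hCA : GdkCA Z) {g : G}
    (hg : g ∉ Z)
    (hν : Nat.card (normalizer (centralizer {g} : Set G)) ≤ 2 * Nat.card (centralizer {g})) :
    Nat.card G ≤ 4 * Nat.card (gdkClass Z g) := by
  have h1 := gdk_card_class hZ hCA hg
  have h2 := gdk_card_diff hZ g
  have h3 := gdk_two_mul_le hZ hg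
  have hNpos : 0 < Nat.card (normalizer (centralizer {g} : Set G)) := Nat.card_pos
  set K := Nat.card (gdkClass Z g)
  set N := Nat.card (normalizer (centralizer {g} : Set G))
  set C := Nat.card (centralizer {g})
  set D := Nat.card {c : G // c ∈ centralizer {g} ∧ c ∉ Z}
  set z := Nat.card Z
  set n := Nat.card G
  -- C ≤ 2 D
  have h4 : C ≤ 2 * D := by omega
  -- n * N ≤ n * (2 C) ≤ n * 4 D = 4 K N
  have h5 : n * N ≤ 4 * K * N := by
    calc n * N ≤ n * (2 * C) := Nat.mul_le_mul_left _ hν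
      _ ≤ n * (2 * (2 * D)) := Nat.mul_le_mul_left _ (Nat.mul_le_mul_left _ h4)
      _ = 4 * (n * D) := by ring
      _ = 4 * (K * N) := by rw [h1]
      _ = 4 * K * N := by ring
  exact Nat.le_of_mul_le_mul_right h5 hNpos

/-- every class with self-normalising centraliser has at least `|G|/2` elements -/
lemma gdk_two_mul_class [Finite G] {Z : Subgroup G} (hZ : Z ≤ center G) (hCA : GdkCA Z) {g : G}
    (hg : g ∉ Z)
    (hν : Nat.card (normalizer (centralizer {g} : Set G)) = Nat.card (centralizer {g})) :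
    Nat.card G ≤ 2 * Nat.card (gdkClass Z g) := by
  have h1 := gdk_card_class hZ hCA hg
  have h2 := gdk_card_diff hZ g
  have h3 := gdk_two_mul_le hZ hg
  have hNpos : 0 < Nat.card (normalizer (centralizer {g} : Set G)) := Nat.card_pos
  set K := Nat.card (gdkClass Z g)
  set N := Nat.card (normalizer (centralizer {g} : Set G))
  set C := Nat.card (centralizer {g})
  set D := Nat.card {c : G // c ∈ centralizer {g} ∧ c ∉ Z}
  set z := Nat.card Z
  set n := Nat.card G
  have h4 : C ≤ 2 * D := by omega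
  have h5 : n * N ≤ 2 * K * N := by
    calc n * N = n * C := by rw [hν]
      _ ≤ n * (2 * D) := Nat.mul_le_mul_left _ h4
      _ = 2 * (n * D) := by ring
      _ = 2 * (K * N) := by rw [h1]
      _ = 2 * K * N := by ring
  exact Nat.le_of_mul_le_mul_right h5 hNpos


/-- pure arithmetic at the end of the class equation -/
lemma gdk_arith_final (n m q t c₂ : ℕ) (hn : n = 1 + m * q) (hm : 1 ≤ m) (hq : 2 ≤ q) (ht : 1 ≤ t)
    (h : n * t = c₂ * (1 + m * (q - 2))) : q ≤ 2 * t + 1 := by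
  obtain ⟨q', rfl⟩ : ∃ q', q = q' + 2 := ⟨q - 2, by omega⟩
  simp only [Nat.add_sub_cancel] at h
  set D := 1 + m * q' with hD
  have hnD : n = D + 2 * m := by rw [hn, hD]; ring
  have hdvd : D ∣ n * t := ⟨c₂, by rw [h, mul_comm]⟩
  have h1 : D ∣ Nat.gcd D n * t := (Nat.dvd_gcd_mul_iff_dvd_mul).2 hdvd
  have hg2 : Nat.gcd D n ∣ 2 := by
    have ha : Nat.gcd D n ∣ D := Nat.gcd_dvd_left _ _
    have hb : Nat.gcd D n ∣ n := Nat.gcd_dvd_right _ _
    have hc : Nat.gcd D n ∣ 2 * m := by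
      have : Nat.gcd D n ∣ n - D := Nat.dvd_sub hb ha
      have h2 : n - D = 2 * m := by omega
      rwa [h2] at this
    -- gcd ∣ 2 * n and gcd ∣ (q'+2) * (2m)
    have hd : Nat.gcd D n ∣ 2 * n := Dvd.dvd.mul_left hb 2
    have he : Nat.gcd D n ∣ (q' + 2) * (2 * m) := Dvd.dvd.mul_left hc _
    have hf : 2 * n - (q' + 2) * (2 * m) = 2 := by
      have : 2 * n = 2 + (q' + 2) * (2 * m) := by rw [hn]; ring
      omega
    have := Nat.dvd_sub hd he
    rwa [hf] at this
  have h3 : D ∣ 2 * t := h1.trans (Nat.mul_dvd_mul_right hg2 t)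
  have h4 : D ≤ 2 * t := Nat.le_of_dvd (by omega) h3
  have h5 : 1 + q' ≤ D := by
    rw [hD]
    have : 1 * q' ≤ m * q' := Nat.mul_le_mul_right _ hm
    omega
  omega


/-- saturated sets: unions of `Z` and classes -/
def GdkSat (Z : Subgroup G) (T : Set G) : Prop :=
  (Z : Set G) ⊆ T ∧ ∀ h ∈ T, h ∉ Z → gdkClass Z h ⊆ T

lemma gdkSat_Z (Z : Subgroup G) : GdkSat Z (Z : Set G) :=
  ⟨subset_rfl, fun _ h hn => absurd h hn⟩

lemma gdkSat_union {Z : Subgroup G} (hZ : Z ≤ center G) (hCA : GdkCA Z) {T : Set G}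
    (hT : GdkSat Z T) {g : G} (hg : g ∉ Z) : GdkSat Z (T ∪ gdkClass Z g) := by
  refine ⟨hT.1.trans Set.subset_union_left, ?_⟩
  rintro h (h1 | h1) hhZ
  · exact (hT.2 h h1 hhZ).trans Set.subset_union_left
  · rw [gdk_class_eq hZ hCA hhZ hg (gdk_self_mem_class hhZ) h1]
    exact Set.subset_union_right

lemma gdkSat_disjoint {Z : Subgroup G} (hZ : Z ≤ center G) (hCA : GdkCA Z) {T : Set G}
    (hT : GdkSat Z T) {g : G} (hg : g ∉ T) : Disjoint T (gdkClass Z g) := by
  have hgZ : g ∉ Z := fun h => hg (hT.1 h)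
  rw [Set.disjoint_left]
  intro h h1 h2
  apply hg
  have hhZ : h ∉ Z := h2.1
  have := hT.2 h h1 hhZ
  rw [gdk_class_eq hZ hCA hhZ hgZ (gdk_self_mem_class hhZ) h2] at this
  exact this (gdk_self_mem_class hgZ)

/-- adding the class of an element outside a saturated set -/
lemma gdkSat_ncard [Finite G] {Z : Subgroup G} (hZ : Z ≤ center G) (hCA : GdkCA Z) {T : Set G}
    (hT : GdkSat Z T) {g : G} (hg : g ∉ T) :
    (T ∪ gdkClass Z g).ncard = T.ncard + (gdkClass Z g).ncard :=
  Set.ncard_union_eq (gdkSat_disjoint hZ hCA hT hg) (Set.toFinite _) (Set.toFinite _)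

omit [Group G] in
lemma gdk_exists_notMem [Finite G] (T : Set G) (hT : T.ncard < Nat.card G) : ∃ g, g ∉ T := by
  by_contra h
  have h' : ∀ g, g ∈ T := fun g => by_contra fun hg => h ⟨g, hg⟩
  have : T = Set.univ := Set.eq_univ_of_forall h'
  rw [this, Set.ncard_univ] at hT
  exact lt_irrefl _ hT

/-- one step: outside a saturated set `T ⊇ Z ∪ K(g₀)` which is not everything, there is a class
`K` with `|T| + |K| ≤ |G| ≤ 4|K|`, and `T ∪ K` is saturated. -/
lemma gdk_step [Finite G] {Z : Subgroup G} (hZ : Z ≤ center G) (hCA : GdkCA Z) (g₀ : G)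
    (hν : ∀ g : G, g ∉ Z → g ∉ gdkClass Z g₀ →
      Nat.card (normalizer (centralizer {g} : Set G)) ≤ 2 * Nat.card (centralizer {g}))
    {T : Set G} (hT : GdkSat Z T) (hK₀ : gdkClass Z g₀ ⊆ T) (hlt : T.ncard < Nat.card G) :
    ∃ g : G, g ∉ Z ∧ g ∉ gdkClass Z g₀ ∧ g ∉ T ∧ GdkSat Z (T ∪ gdkClass Z g) ∧
      (T ∪ gdkClass Z g).ncard = T.ncard + (gdkClass Z g).ncard ∧
      T.ncard + (gdkClass Z g).ncard ≤ Nat.card G ∧
      Nat.card G ≤ 4 * (gdkClass Z g).ncard := by
  obtain ⟨g, hg⟩ := gdk_exists_notMem T hlt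
  have hgZ : g ∉ Z := fun h => hg (hT.1 h)
  have hgK : g ∉ gdkClass Z g₀ := fun h => hg (hK₀ h)
  have h1 := gdkSat_ncard hZ hCA hT hg
  have h2 : (T ∪ gdkClass Z g).ncard ≤ Nat.card G := Set.ncard_le_card _
  have h3 := gdk_four_mul_class hZ hCA hgZ (hν g hgZ hgK)
  rw [Nat.card_coe_set_eq] at h3
  exact ⟨g, hgZ, hgK, hg, gdkSat_union hZ hCA hT hgZ, h1, h1 ▸ h2, h3⟩

/-- arithmetic: the final equation -/
lemma gdk_arith_eq (n m q t z c₂ k₂ Dg : ℕ) (hn : n = 1 + m * q) (hz : 0 < z) (hq : 2 ≤ q)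
    (h1 : 2 * k₂ + n * z * q + 2 * z = n * z * q * t + 2 * (n * z))
    (h2 : k₂ * (2 * (z * c₂)) = n * (z * q * t) * Dg) (h3 : Dg + z = z * c₂) :
    n * t = c₂ * (1 + m * (q - 2)) := by
  obtain ⟨q', rfl⟩ : ∃ q', q = q' + 2 := ⟨q - 2, by omega⟩
  simp only [Nat.add_sub_cancel]
  zify at h1 h2 h3 hn ⊢
  have hzne : (z : ℤ) ≠ 0 := by exact_mod_cast hz.ne'
  have hDg : (Dg : ℤ) = z * c₂ - z := by linarith
  have e2 : (2 * (k₂ : ℤ)) = n * z * (q' + 2) * t + 2 * (n * z) - n * z * (q' + 2) - 2 * z := by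
    linarith
  have e3 : (2 * (k₂ : ℤ)) * (z * c₂) = n * (z * (q' + 2) * t) * (z * c₂ - z) := by
    rw [← hDg]; linarith [h2]
  rw [e2] at e3
  have e4 : (z : ℤ) * z * ((n : ℤ) * t - c₂ * (1 + m * q')) * (q' + 2) = 0 := by
    have h5 : (n : ℤ) - 1 = m * (q' + 2) := by linarith
    linear_combination e3 + ((z:ℤ) * z * c₂ * q') * h5
  have hq'pos : ((q' : ℤ) + 2) ≠ 0 := by positivity
  have e5 : (n : ℤ) * t - c₂ * (1 + m * q') = 0 := by
    rcases mul_eq_zero.1 e4 with h | h
    · rcases mul_eq_zero.1 h with h | h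
      · rcases mul_eq_zero.1 h with h | h <;> exact absurd h hzne
      · exact h
    · exact absurd h hq'pos
  linarith

/-- class size, in `ncard` form -/
lemma gdk_class_ncard [Finite G] {Z : Subgroup G} (hZ : Z ≤ center G) (hCA : GdkCA Z) {g : G}
    (hg : g ∉ Z) :
    ∃ D : ℕ, D + Nat.card Z = Nat.card (centralizer {g}) ∧
      (gdkClass Z g).ncard * Nat.card (normalizer (centralizer {g} : Set G)) = Nat.card G * D := by
  refine ⟨_, gdk_card_diff hZ g, ?_⟩
  rw [← Nat.card_coe_set_eq]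
  exact gdk_card_class hZ hCA hg

lemma gdk_arith_t1 (n z q D₀ k : ℕ) (hz : 0 < z) (hq : 4 ≤ q) (hD : D₀ + z = z * q)
    (h1 : z + n * D₀ + k ≤ n * (z * q)) (h2 : n * (z * q) ≤ 4 * k) : False := by
  have e : n * D₀ + n * z = n * (z * q) := by rw [← hD]; ring
  have f : 4 * (n * z) ≤ n * (z * q) := by
    have : n * (z * q) = q * (n * z) := by ring
    rw [this]; exact Nat.mul_le_mul_right _ hq
  omega

lemma gdk_arith_t2a (n z q t D₀ Db k₁ k : ℕ) (hz : 0 < z) (hq : 4 ≤ q) (ht : 2 ≤ t)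
    (hD : D₀ + z = z * q) (hDb : Db + z = z * t)
    (hk₁ : k₁ * (z * t) = n * (z * q * t) * Db)
    (h1 : z + n * D₀ + k₁ + k ≤ n * (z * q * t)) (h2 : n * (z * q * t) ≤ 4 * k) : False := by
  have hzt : 0 < z * t := by positivity
  have hk₁' : k₁ = n * q * Db := by
    have : k₁ * (z * t) = n * q * Db * (z * t) := by rw [hk₁]; ring
    exact Nat.eq_of_mul_eq_mul_right hzt this
  have e : n * D₀ + n * z = n * (z * q) := by rw [← hD]; ring
  have e2 : k₁ + n * (z * q) = n * (z * q * t) := by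
    rw [hk₁']
    have : n * q * (Db + z) = n * q * (z * t) := by rw [hDb]
    calc n * q * Db + n * (z * q) = n * q * (Db + z) := by ring
      _ = n * q * (z * t) := this
      _ = n * (z * q * t) := by ring
  have f : 4 * (n * z) ≤ n * (z * q) := by
    have : n * (z * q) = q * (n * z) := by ring
    rw [this]; exact Nat.mul_le_mul_right _ hq
  have g : n * (z * q) ≤ n * (z * q * t) := by
    have : n * (z * q * t) = n * (z * q) * t := by ring
    rw [this]; exact Nat.le_mul_of_pos_right _ (by omega)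
  omega

/-- the facts in the case `|N_b| = 2zt` -/
lemma gdk_arith_t2b (n z q t D₀ Db k₁ : ℕ) (hz : 0 < z) (hq : 4 ≤ q) (ht : 2 ≤ t) (hn : 2 ≤ n)
    (hD : D₀ + z = z * q) (hDb : Db + z = z * t)
    (hk₁ : k₁ * (2 * (z * t)) = n * (z * q * t) * Db) :
    n * D₀ + n * z = n * (z * q) ∧ 2 * k₁ + n * (z * q) = n * (z * q * t) ∧
      4 * (n * z) ≤ n * (z * q) ∧ n * (z * q) ≤ n * (z * q * t) ∧ z < n * z := by
  have hzt : 0 < z * t := by positivity
  have hk₁' : 2 * k₁ = n * q * Db := by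
    have : 2 * k₁ * (z * t) = n * q * Db * (z * t) := by
      calc 2 * k₁ * (z * t) = k₁ * (2 * (z * t)) := by ring
        _ = n * (z * q * t) * Db := hk₁
        _ = n * q * Db * (z * t) := by ring
    exact Nat.eq_of_mul_eq_mul_right hzt this
  refine ⟨by rw [← hD]; ring, ?_, ?_, ?_, ?_⟩
  · rw [hk₁']
    have : n * q * (Db + z) = n * q * (z * t) := by rw [hDb]
    calc n * q * Db + n * (z * q) = n * q * (Db + z) := by ring
      _ = n * q * (z * t) := this
      _ = n * (z * q * t) := by ring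
  · have : n * (z * q) = q * (n * z) := by ring
    rw [this]; exact Nat.mul_le_mul_right _ hq
  · have : n * (z * q * t) = n * (z * q) * t := by ring
    rw [this]; exact Nat.le_mul_of_pos_right _ (by omega)
  · calc z = 1 * z := (one_mul z).symm
      _ < n * z := Nat.mul_lt_mul_of_pos_right (by omega) hz

/-- **The class equation, counting form.** -/
theorem gdk_class_equation [Finite G] (Z : Subgroup G) (hZ : Z ≤ center G) (hCA : GdkCA Z)
    (g₀ : G) (hg₀ : g₀ ∉ Z) (z q t m : ℕ) (hz : Nat.card Z = z)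
    (hC : Nat.card (centralizer {g₀}) = z * q)
    (hN : Nat.card (normalizer (centralizer {g₀} : Set G)) = z * q * t)
    (hG : Nat.card G = (1 + m * q) * (z * q * t)) (hm : 1 ≤ m)
    (hν : ∀ g : G, g ∉ Z → g ∉ gdkClass Z g₀ →
      Nat.card (normalizer (centralizer {g} : Set G)) ≤ 2 * Nat.card (centralizer {g}))
    (hb : 2 ≤ t → ∃ b : G, b ∉ Z ∧ b ∉ gdkClass Z g₀ ∧ Nat.card (centralizer {b}) = z * t) :
    q ≤ 2 * t + 1 := by
  classical
  by_contra hcon
  have hcon' : 2 * t + 1 < q := not_le.1 hcon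
  have hzpos : 0 < z := hz ▸ Nat.card_pos
  have hNpos : 0 < z * q * t := hN ▸ Nat.card_pos
  have ht : 1 ≤ t := by
    rcases Nat.eq_zero_or_pos t with h | h
    · rw [h, mul_zero] at hNpos; omega
    · exact h
  have hq : 4 ≤ q := by omega
  obtain ⟨n, hn⟩ : ∃ n, n = 1 + m * q := ⟨_, rfl⟩
  have hn2 : 2 ≤ n := by
    have : 1 * 4 ≤ m * q := Nat.mul_le_mul hm hq
    omega
  rw [← hn] at hG
  -- the class of g₀
  obtain ⟨D₀, hD₀, hk₀⟩ := gdk_class_ncard hZ hCA hg₀
  rw [hz, hC] at hD₀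
  rw [hN, hG] at hk₀
  have hk₀' : (gdkClass Z g₀).ncard = n * D₀ := by
    have : (gdkClass Z g₀).ncard * (z * q * t) = n * D₀ * (z * q * t) := by
      rw [hk₀]; ring
    exact Nat.eq_of_mul_eq_mul_right hNpos this
  have hZcard : (Z : Set G).ncard = z := by rw [← hz, ← Nat.card_coe_set_eq]; rfl
  -- T₁ = Z ∪ K₀
  have hg₀' : g₀ ∉ (Z : Set G) := hg₀
  have hS₁ : GdkSat Z ((Z : Set G) ∪ gdkClass Z g₀) := gdkSat_union hZ hCA (gdkSat_Z Z) hg₀
  have hT₁ : ((Z : Set G) ∪ gdkClass Z g₀).ncard = z + n * D₀ := by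
    rw [gdkSat_ncard hZ hCA (gdkSat_Z Z) hg₀', hZcard, hk₀']
  have hK₀T₁ : gdkClass Z g₀ ⊆ (Z : Set G) ∪ gdkClass Z g₀ := Set.subset_union_right
  by_cases ht1 : t = 1
  · -- case t = 1
    subst ht1
    rw [mul_one] at hG
    have hlt : ((Z : Set G) ∪ gdkClass Z g₀).ncard < Nat.card G := by
      rw [hT₁, hG]
      have e : n * D₀ + n * z = n * (z * q) := by rw [← hD₀]; ring
      have h2 : z < n * z := by
        calc z = 1 * z := (one_mul z).symm
          _ < n * z := Nat.mul_lt_mul_of_pos_right (by omega) hzpos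
      omega
    obtain ⟨g, -, -, -, -, -, h5, h4⟩ := gdk_step hZ hCA g₀ hν hS₁ hK₀T₁ hlt
    rw [hT₁, hG] at h5
    rw [hG] at h4
    exact gdk_arith_t1 n z q D₀ _ hzpos hq hD₀ h5 h4
  · have ht2 : 2 ≤ t := by omega
    obtain ⟨b, hbZ, hbK, hbC⟩ := hb ht2
    obtain ⟨Db, hDb, hkb⟩ := gdk_class_ncard hZ hCA hbZ
    rw [hz, hbC] at hDb
    rw [hG] at hkb
    have hbT₁ : b ∉ (Z : Set G) ∪ gdkClass Z g₀ := fun h => h.elim hbZ hbK
    have hS₂ : GdkSat Z (((Z : Set G) ∪ gdkClass Z g₀) ∪ gdkClass Z b) :=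
      gdkSat_union hZ hCA hS₁ hbZ
    have hT₂ : (((Z : Set G) ∪ gdkClass Z g₀) ∪ gdkClass Z b).ncard =
        z + n * D₀ + (gdkClass Z b).ncard := by
      rw [gdkSat_ncard hZ hCA hS₁ hbT₁, hT₁]
    have hK₀T₂ : gdkClass Z g₀ ⊆ ((Z : Set G) ∪ gdkClass Z g₀) ∪ gdkClass Z b :=
      hK₀T₁.trans Set.subset_union_left
    rcases gdk_card_normalizer _ (hν b hbZ hbK) with hNb | hNb
    · -- |N_b| = z t
      rw [hNb, hbC] at hkb
      have hlt : (((Z : Set G) ∪ gdkClass Z g₀) ∪ gdkClass Z b).ncard < Nat.card G := by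
        by_contra hge
        have heq : (((Z : Set G) ∪ gdkClass Z g₀) ∪ gdkClass Z b).ncard = Nat.card G :=
          le_antisymm (Set.ncard_le_card _) (not_lt.1 hge)
        rw [hT₂, hG] at heq
        exact gdk_arith_t2a n z q t D₀ Db _ 0 hzpos hq ht2 hD₀ hDb hkb (by omega) (by
          have hzt : 0 < z * t := by positivity
          have hk₁' : (gdkClass Z b).ncard = n * q * Db := by
            have : (gdkClass Z b).ncard * (z * t) = n * q * Db * (z * t) := by rw [hkb]; ring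
            exact Nat.eq_of_mul_eq_mul_right hzt this
          exfalso
          have e : n * D₀ + n * z = n * (z * q) := by rw [← hD₀]; ring
          have e2 : (gdkClass Z b).ncard + n * (z * q) = n * (z * q * t) := by
            rw [hk₁']
            have : n * q * (Db + z) = n * q * (z * t) := by rw [hDb]
            calc n * q * Db + n * (z * q) = n * q * (Db + z) := by ring
              _ = n * q * (z * t) := this
              _ = n * (z * q * t) := by ring
          have h2 : z < n * z := by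
            calc z = 1 * z := (one_mul z).symm
              _ < n * z := Nat.mul_lt_mul_of_pos_right (by omega) hzpos
          omega)
      obtain ⟨g, -, -, -, -, -, h5, h4⟩ := gdk_step hZ hCA g₀ hν hS₂ hK₀T₂ hlt
      rw [hT₂, hG] at h5
      rw [hG] at h4
      exact gdk_arith_t2a n z q t D₀ Db _ _ hzpos hq ht2 hD₀ hDb hkb h5 h4
    · -- |N_b| = 2 z t
      rw [hNb, hbC] at hkb
      obtain ⟨e1, e2, e3, e4, e5⟩ := gdk_arith_t2b n z q t D₀ Db _ hzpos hq ht2 hn2 hD₀ hDb hkb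
      have hlt : (((Z : Set G) ∪ gdkClass Z g₀) ∪ gdkClass Z b).ncard < Nat.card G := by
        rw [hT₂, hG]; omega
      obtain ⟨g, hgZ, hgK, hgT, hS₃, hT₃, h5, h4⟩ := gdk_step hZ hCA g₀ hν hS₂ hK₀T₂ hlt
      rw [hT₂] at hT₃
      rw [hT₂, hG] at h5
      rw [hG] at h4
      obtain ⟨Dg, hDg, hkg⟩ := gdk_class_ncard hZ hCA hgZ
      rw [hz] at hDg
      rw [hG] at hkg
      rcases gdk_card_normalizer _ (hν g hgZ hgK) with hNg | hNg
      · -- self-normalising: 2 k₂ ≥ |G|
        have h2 := gdk_two_mul_class hZ hCA hgZ hNg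
        rw [Nat.card_coe_set_eq, hG] at h2
        omega
      · -- index 2
        rw [hNg] at hkg
        have hall : ((((Z : Set G) ∪ gdkClass Z g₀) ∪ gdkClass Z b) ∪ gdkClass Z g).ncard =
            Nat.card G := by
          by_contra hne
          have hlt' : ((((Z : Set G) ∪ gdkClass Z g₀) ∪ gdkClass Z b) ∪ gdkClass Z g).ncard <
              Nat.card G := lt_of_le_of_ne (Set.ncard_le_card _) hne
          obtain ⟨g', -, -, -, -, -, h5', h4'⟩ := gdk_step hZ hCA g₀ hν hS₃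
            (hK₀T₂.trans Set.subset_union_left) hlt'
          rw [hT₃, hG] at h5'
          rw [hG] at h4'
          omega
        rw [hT₃, hG] at hall
        obtain ⟨c₂, hc₂⟩ : z ∣ Nat.card (centralizer {g}) :=
          hz ▸ Subgroup.card_dvd_of_le (gdk_le_centralizer hZ g)
        rw [hc₂] at hkg hDg
        have hq2 : 2 ≤ q := by omega
        have hfin := gdk_arith_final n m q t c₂ hn hm hq2 ht
          (gdk_arith_eq n m q t z c₂ _ Dg hn hzpos hq2 (by
            have : n * z * q = n * (z * q) := by ring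
            have h' : n * (z * q) * t = n * (z * q * t) := by ring
            rw [this, h']; omega) hkg hDg)
        omega

end Fermat.Agent.TW.G.Dk
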