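import Fermat.Agent.TW.G.Plan
import Fermat.Agent.TW.G.Dickson.ClassEq

/-!
# TW-G / P9 G-dickson (helper26): interface for the concrete part

Goal: `Fermat.Agent.TW.G.Sel.StmtDickson`, by the abstract class equation
`Fermat.Agent.TW.G.Dk.gdk_class_equation` applied to the finite group `↥G`, `G ≤ GL₂(k)` with
`det = 1` on `G`, `Z = G ∩ {±1}`, `g₀ = u_{x₀}`.  One `Prop` per piece.  Proofs: NOTES/TW-G.md §3.
-/

set_option autoImplicit false

namespace Fermat.Agent.TW.G.Dk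

open Matrix Polynomial Subgroup Fermat.Agent.TW.G.Sel

/-- `{±1}` in `GL₂(k)` -/
def dkZgl (k : Type) [Field k] : Subgroup (GL (Fin 2) k) where
  carrier := {g | g.1 = 1 ∨ g.1 = -1}
  one_mem' := Or.inl rfl
  mul_mem' := by
    rintro a b (ha | ha) (hb | hb)
    · left; show (a * b).1 = 1; rw [Units.val_mul, ha, hb, mul_one]
    · right; show (a * b).1 = -1; rw [Units.val_mul, ha, hb, one_mul]
    · right; show (a * b).1 = -1; rw [Units.val_mul, ha, hb, mul_one]
    · left; show (a * b).1 = 1; rw [Units.val_mul, ha, hb]; simp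
  inv_mem' := by
    rintro a (ha | ha)
    · left
      have : a = 1 := Units.ext ha
      rw [this]; simp
    · right
      have h1 : (a * a).1 = 1 := by rw [Units.val_mul, ha]; simp
      have h2 : a * a = 1 := Units.ext h1
      have h3 : a⁻¹ = a := inv_eq_of_mul_eq_one_left h2
      rw [h3, ha]

/-- the upper triangular matrices in `GL₂(k)` -/
def dkBgl (k : Type) [Field k] : Subgroup (GL (Fin 2) k) where
  carrier := {g | g.1 1 0 = 0}
  one_mem' := by simp
  mul_mem' := by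
    intro a b ha hb
    change a.1 1 0 = 0 at ha
    change b.1 1 0 = 0 at hb
    show (a * b).1 1 0 = 0
    rw [Units.val_mul, Matrix.mul_apply, Fin.sum_univ_two, ha, hb]; simp
  inv_mem' := by
    intro a ha
    change a.1 1 0 = 0 at ha
    show (a⁻¹).1 1 0 = 0
    have h : (a⁻¹ : GL (Fin 2) k).1 = (a.1)⁻¹ := Matrix.coe_units_inv a
    rw [h, Matrix.inv_def, Matrix.smul_apply, Matrix.adjugate_fin_two]
    simp [ha]

/-- the matrices `±u_x` in `GL₂(k)` -/
def dkZUgl (k : Type) [Field k] : Subgroup (GL (Fin 2) k) where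
  carrier := {g | g.1 1 0 = 0 ∧ g.1 0 0 = g.1 1 1 ∧ (g.1 0 0 = 1 ∨ g.1 0 0 = -1)}
  one_mem' := by simp
  mul_mem' := by
    rintro a b ⟨ha, ha', ha''⟩ ⟨hb, hb', hb''⟩
    show (a * b).1 1 0 = 0 ∧ (a * b).1 0 0 = (a * b).1 1 1 ∧ ((a * b).1 0 0 = 1 ∨ (a * b).1 0 0 = -1)
    rw [Units.val_mul]
    simp only [Matrix.mul_apply, Fin.sum_univ_two, ha, hb, ← ha', ← hb']
    refine ⟨by simp, by simp, ?_⟩
    rcases ha'' with h | h <;> rcases hb'' with h' | h' <;> simp [h, h']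
  inv_mem' := by
    rintro a ⟨ha, ha', ha''⟩
    show (a⁻¹).1 1 0 = 0 ∧ (a⁻¹).1 0 0 = (a⁻¹).1 1 1 ∧ ((a⁻¹).1 0 0 = 1 ∨ (a⁻¹).1 0 0 = -1)
    have h : (a⁻¹ : GL (Fin 2) k).1 = (a.1)⁻¹ := Matrix.coe_units_inv a
    have hdet : a.1.det = 1 := by
      rw [Matrix.det_fin_two, ha, ← ha']
      rcases ha'' with h | h <;> simp [h]
    rw [h, Matrix.inv_def, hdet]
    simp only [Ring.inverse_one, one_smul, Matrix.adjugate_fin_two, Matrix.of_apply,
      Matrix.cons_val', Matrix.cons_val_zero, Matrix.cons_val_one, Matrix.empty_val',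
      Matrix.cons_val_fin_one]
    refine ⟨by simp [ha], ha'.symm, ?_⟩
    rw [← ha']; exact ha''

variable {k : Type} [Field k]

/-- standing assumptions for the counting -/
structure DkHyp (p : ℕ) (G : Subgroup (GL (Fin 2) k)) : Prop where
  odd : p ≠ 2
  det_one : ∀ g ∈ G, g.1.det = 1
  split : ∀ g ∈ G, IsSplit g.1
  uni : ∃ g ∈ G, ∃ x : k, x ≠ 0 ∧ g.1 = uU x
  nontri : ∃ g ∈ G, g.1 1 0 ≠ 0

/-- `Z = G ∩ {±1}` as a subgroup of `↥G` -/
abbrev dkZ (G : Subgroup (GL (Fin 2) k)) : Subgroup ↥G := (dkZgl k).subgroupOf G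

/-- (DkA) `Z` is central and centralisers of elements outside `Z` are abelian. -/
def StmtDkA : Prop :=
  ∀ (p : ℕ) [Fact p.Prime] (k : Type) [Field k] [Finite k] [CharP k p]
    (G : Subgroup (GL (Fin 2) k)), DkHyp p G →
    dkZ G ≤ center ↥G ∧ GdkCA (dkZ G)

/-- (DkB) centraliser and normaliser of a nontrivial upper unipotent element. -/
def StmtDkB : Prop :=
  ∀ (p : ℕ) [Fact p.Prime] (k : Type) [Field k] [Finite k] [CharP k p]
    (G : Subgroup (GL (Fin 2) k)), DkHyp p G →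
    ∀ g₀ : ↥G, (∃ x : k, x ≠ 0 ∧ g₀.1.1 = uU x) →
      centralizer {g₀} = (dkZUgl k).subgroupOf G ∧
      normalizer (centralizer {g₀} : Set ↥G) = (dkBgl k).subgroupOf G

/-- (DkB') the orders of `ZU` and `B`. -/
def StmtDkB' : Prop :=
  ∀ (p : ℕ) [Fact p.Prime] (k : Type) [Field k] [Finite k] [CharP k p]
    (G : Subgroup (GL (Fin 2) k)), DkHyp p G →
    Nat.card ((dkZUgl k).subgroupOf G) = Nat.card (dkZ G) * Nat.card (Xset G) ∧
    Nat.card ((dkBgl k).subgroupOf G) =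
      Nat.card (dkZ G) * Nat.card (Xset G) * Nat.card (Asq G)

/-- (DkC) the index of `B`: `[G : B] = 1 + m q` with `m ≥ 1`. -/
def StmtDkC : Prop :=
  ∀ (p : ℕ) [Fact p.Prime] (k : Type) [Field k] [Finite k] [CharP k p]
    (G : Subgroup (GL (Fin 2) k)), DkHyp p G →
    ∃ m : ℕ, 1 ≤ m ∧
      Nat.card ↥G = (1 + m * Nat.card (Xset G)) * Nat.card ((dkBgl k).subgroupOf G)

/-- (DkD1) the centraliser of an element with distinct eigenvalues has index at most 2 in its
normaliser. -/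
def StmtDkD1 : Prop :=
  ∀ (p : ℕ) [Fact p.Prime] (k : Type) [Field k] [Finite k] [CharP k p]
    (G : Subgroup (GL (Fin 2) k)), DkHyp p G →
    ∀ g : ↥G, HasDistinctEig g.1.1 →
      Nat.card (normalizer (centralizer {g} : Set ↥G)) ≤ 2 * Nat.card (centralizer {g})

/-- (DkD2) every element of `G ∖ Z` without distinct eigenvalues is conjugate in `G` to some
`±u_x` (Sylow). -/
def StmtDkD2 : Prop :=
  StmtDkB' → StmtDkC →
  ∀ (p : ℕ) [Fact p.Prime] (k : Type) [Field k] [Finite k] [CharP k p]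
    (G : Subgroup (GL (Fin 2) k)), DkHyp p G →
    ∀ g : ↥G, g ∉ dkZ G → ¬ HasDistinctEig g.1.1 →
      ∃ x : ↥G, x⁻¹ * g * x ∈ (dkZUgl k).subgroupOf G

/-- (DkE) if `t ≥ 2` there is an upper triangular element with distinct eigenvalues whose
centraliser has order `z t`. -/
def StmtDkE : Prop :=
  StmtDkB' →
  ∀ (p : ℕ) [Fact p.Prime] (k : Type) [Field k] [Finite k] [CharP k p]
    (G : Subgroup (GL (Fin 2) k)), DkHyp p G → 2 ≤ Nat.card (Asq G) →
    ∃ b : ↥G, HasDistinctEig b.1.1 ∧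
      Nat.card (centralizer {b}) = Nat.card (dkZ G) * Nat.card (Asq G)

/-- (DkF) assembly. -/
def StmtDkF : Prop :=
  StmtDkA → StmtDkB → StmtDkB' → StmtDkC → StmtDkD1 → StmtDkD2 → StmtDkE → StmtDickson

end Fermat.Agent.TW.G.Dk
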