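/-
TW-G / P9 Dickson, piece DkE (helper1): if `t = |A²| ≥ 2`, there is an upper triangular `b ∈ G`
with distinct eigenvalues whose centraliser in `G` has order `z t`.

`χ : B → kˣ`, `g ↦ g₀₀`, is a homomorphism on the upper triangular elements `B` of `G` (`det = 1`
on `G`), with kernel `U ≅ Xset G` and cyclic image `A`; `|B| = z q t` (DkB') gives `|A| = z t`.
For `b ∈ B` with `χ(b)` a generator of `A`: `χ(b)² ≠ 1` (`t ≥ 2`), the centraliser of `b` is
contained in `B` and `χ` maps it bijectively onto `A`.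
-/
import Fermat.Agent.TW.G.Dickson.Plan

set_option autoImplicit false

namespace Fermat.Agent.TW.G.Dk

open Matrix Polynomial Subgroup Fermat.Agent.TW.G.Sel

variable {k : Type} [Field k]

/-- upper triangular of determinant one: the product of the diagonal entries is `1`. -/
lemma gdke_diag_mul {g : GL (Fin 2) k} (h10 : g.1 1 0 = 0) (hdet : g.1.det = 1) :
    g.1 0 0 * g.1 1 1 = 1 := by
  rw [Matrix.det_fin_two, h10, mul_zero, sub_zero] at hdet
  exact hdet

lemma gdke_ne_zero {g : GL (Fin 2) k} (h10 : g.1 1 0 = 0) (hdet : g.1.det = 1) :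
    g.1 0 0 ≠ 0 := by
  intro h
  have h1 := gdke_diag_mul h10 hdet
  rw [h, zero_mul] at h1
  exact zero_ne_one h1

lemma gdke_mem_B {G : Subgroup (GL (Fin 2) k)} (x : ↥((dkBgl k).subgroupOf G)) :
    x.1.1.1 1 0 = 0 := Subgroup.mem_subgroupOf.1 x.2

/-- the character `g ↦ g₀₀` on the upper triangular elements of `G`. -/
noncomputable def gdkeChar (G : Subgroup (GL (Fin 2) k)) (hdet : ∀ g ∈ G, g.1.det = 1) :
    ↥((dkBgl k).subgroupOf G) →* kˣ where
  toFun x := Units.mk0 (x.1.1.1 0 0) (gdke_ne_zero (gdke_mem_B x) (hdet _ x.1.2))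
  map_one' := by
    apply Units.ext
    show (1 : Matrix (Fin 2) (Fin 2) k) 0 0 = 1
    simp
  map_mul' x y := by
    apply Units.ext
    have hy : y.1.1.1 1 0 = 0 := gdke_mem_B y
    show (x.1.1.1 * y.1.1.1) 0 0 = x.1.1.1 0 0 * y.1.1.1 0 0
    rw [Matrix.mul_apply, Fin.sum_univ_two, hy, mul_zero, add_zero]

@[simp] lemma gdkeChar_val (G : Subgroup (GL (Fin 2) k)) (hdet : ∀ g ∈ G, g.1.det = 1)
    (x : ↥((dkBgl k).subgroupOf G)) : ((gdkeChar G hdet x : kˣ) : k) = x.1.1.1 0 0 := rfl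

/-- the kernel of `χ` is in bijection with `Xset G`. -/
lemma gdke_card_ker (G : Subgroup (GL (Fin 2) k)) (hdet : ∀ g ∈ G, g.1.det = 1) :
    Nat.card (gdkeChar G hdet).ker = Nat.card (Xset G) := by
  have hker : ∀ x : ↥((dkBgl k).subgroupOf G), x ∈ (gdkeChar G hdet).ker →
      x.1.1.1 = uU (x.1.1.1 0 1) := by
    intro x hx
    have h00 : x.1.1.1 0 0 = 1 := by
      have h := congrArg (fun u : kˣ => (u : k)) (MonoidHom.mem_ker.1 hx)
      simpa using h
    have h10 : x.1.1.1 1 0 = 0 := gdke_mem_B x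
    have h11 : x.1.1.1 1 1 = 1 := by
      have h := gdke_diag_mul h10 (hdet _ x.1.2)
      rw [h00, one_mul] at h
      exact h
    ext i j
    fin_cases i <;> fin_cases j <;> simp [uU, h00, h10, h11]
  refine Nat.card_congr (Equiv.ofBijective
    (fun x : (gdkeChar G hdet).ker => (⟨x.1.1.1.1 0 1, ⟨x.1.1.1, x.1.1.2, hker x.1 x.2⟩⟩ : Xset G))
    ⟨?_, ?_⟩)
  · intro x y hxy
    have h01 : x.1.1.1.1 0 1 = y.1.1.1.1 0 1 := congrArg Subtype.val hxy
    apply Subtype.ext
    apply Subtype.ext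
    apply Subtype.ext
    apply Units.ext
    rw [hker x.1 x.2, hker y.1 y.2, h01]
  · rintro ⟨y, g, hg, hgy⟩
    have hB : (⟨g, hg⟩ : ↥G) ∈ (dkBgl k).subgroupOf G := by
      rw [Subgroup.mem_subgroupOf]
      show g.1 1 0 = 0
      rw [hgy]; simp [uU]
    have hk : (⟨⟨g, hg⟩, hB⟩ : ↥((dkBgl k).subgroupOf G)) ∈ (gdkeChar G hdet).ker := by
      rw [MonoidHom.mem_ker]
      apply Units.ext
      show g.1 0 0 = 1
      rw [hgy]; simp [uU]
    refine ⟨⟨⟨⟨g, hg⟩, hB⟩, hk⟩, ?_⟩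
    apply Subtype.ext
    show g.1 0 1 = y
    rw [hgy]; simp [uU]

/-- `|B| = q · |A|`. -/
lemma gdke_card_B [Finite k] (G : Subgroup (GL (Fin 2) k)) (hdet : ∀ g ∈ G, g.1.det = 1) :
    Nat.card ↥((dkBgl k).subgroupOf G) =
      Nat.card (Xset G) * Nat.card (gdkeChar G hdet).range := by
  rw [← gdke_card_ker G hdet, ← Subgroup.index_ker, Subgroup.card_mul_index]

/-- characteristic polynomial of an upper triangular matrix. -/
lemma gdke_charpoly {g : GL (Fin 2) k} (h10 : g.1 1 0 = 0) :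
    g.1.charpoly = (X - C (g.1 0 0)) * (X - C (g.1 1 1)) := by
  rw [Matrix.charpoly_fin_two, Matrix.trace_fin_two, Matrix.det_fin_two, h10, mul_zero, sub_zero]
  simp only [map_add, map_mul]
  ring

/-- an element commuting with an upper triangular element with distinct diagonal entries is
upper triangular. -/
lemma gdke_comm_upper {b c : Matrix (Fin 2) (Fin 2) k} (hb : b 1 0 = 0) (hne : b 0 0 ≠ b 1 1)
    (hc : c * b = b * c) : c 1 0 = 0 := by
  have h := congrFun (congrFun hc 1) 0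
  rw [Matrix.mul_apply, Matrix.mul_apply, Fin.sum_univ_two, Fin.sum_univ_two, hb] at h
  have h2 : c 1 0 * (b 0 0 - b 1 1) = 0 := by linear_combination h
  rcases mul_eq_zero.1 h2 with h3 | h3
  · exact h3
  · exact absurd (sub_eq_zero.1 h3) hne

/-- the `(0,1)` entry of an element commuting with `b`. -/
lemma gdke_comm_entry {b c : Matrix (Fin 2) (Fin 2) k} (hc : c * b = b * c) :
    c 0 1 * (b 1 1 - b 0 0) = b 0 1 * (c 1 1 - c 0 0) := by
  have h := congrFun (congrFun hc 0) 1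
  rw [Matrix.mul_apply, Matrix.mul_apply, Fin.sum_univ_two, Fin.sum_univ_two] at h
  linear_combination h

/-- **DkE**. -/
theorem stmtDkE : StmtDkE := by
  intro hB' p hp k _ _ _ G hG ht
  have hdet := hG.det_one
  have hfinX : Finite (Xset G) := Finite.of_injective (fun x : Xset G => (x : k))
    Subtype.val_injective
  have hneX : Nonempty (Xset G) := ⟨⟨0, 1, G.one_mem, by
    ext i j; fin_cases i <;> fin_cases j <;> simp [uU]⟩⟩
  have hfinA : Finite (Asq G) := Finite.of_injective (fun x : Asq G => (x : k))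
    Subtype.val_injective
  have hcyc : IsCyclic (gdkeChar G hdet).range := inferInstance
  obtain ⟨a, ha⟩ := IsCyclic.exists_generator (α := (gdkeChar G hdet).range)
  obtain ⟨b₀, hb₀⟩ := a.2
  -- an element of `Asq G` different from `1`
  have hs : ∃ s ∈ Asq G, s ≠ 1 := by
    have hnt : Nontrivial (Asq G) := Finite.one_lt_card_iff_nontrivial.1 ht
    obtain ⟨s, s', hne⟩ := exists_pair_ne (Asq G)
    by_cases h1 : (s : k) = 1
    · refine ⟨s', s'.2, fun h2 => hne ?_⟩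
      apply Subtype.ext
      rw [h1, h2]
    · exact ⟨s, s.2, h1⟩
  obtain ⟨s, ⟨g, hg, hg10, -, hsg⟩, hs1⟩ := hs
  have hgB : (⟨g, hg⟩ : ↥G) ∈ (dkBgl k).subgroupOf G := by
    rw [Subgroup.mem_subgroupOf]
    exact hg10
  -- `χ(b₀)² ≠ 1`
  have ha2 : (b₀.1.1.1 0 0) ^ 2 ≠ 1 := by
    intro h2
    apply hs1
    obtain ⟨n, hn⟩ := Subgroup.mem_zpowers_iff.1
      (ha ⟨gdkeChar G hdet ⟨⟨g, hg⟩, hgB⟩, ⟨_, rfl⟩⟩)
    have hn' : (a : kˣ) ^ n = gdkeChar G hdet ⟨⟨g, hg⟩, hgB⟩ := by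
      have := congrArg (fun y : (gdkeChar G hdet).range => (y : kˣ)) hn
      simpa using this
    have hval : ((gdkeChar G hdet b₀ : kˣ) : k) ^ 2 = 1 := h2
    have hu : (gdkeChar G hdet b₀) ^ 2 = 1 := by
      apply Units.ext
      rw [Units.val_pow_eq_pow_val, hval, Units.val_one]
    have hsq : (gdkeChar G hdet ⟨⟨g, hg⟩, hgB⟩) ^ 2 = 1 := by
      rw [← hn', ← hb₀, ← _root_.zpow_natCast, ← _root_.zpow_mul, mul_comm, _root_.zpow_mul,
        _root_.zpow_natCast, hu, _root_.one_zpow]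
    have := congrArg (fun u : kˣ => (u : k)) hsq
    simp only [Units.val_pow_eq_pow_val, gdkeChar_val, Units.val_one] at this
    rw [hsg]
    exact this
  have hb10 : b₀.1.1.1 1 0 = 0 := gdke_mem_B b₀
  have hdiag : b₀.1.1.1 0 0 * b₀.1.1.1 1 1 = 1 := gdke_diag_mul hb10 (hdet _ b₀.1.2)
  have hne : b₀.1.1.1 0 0 ≠ b₀.1.1.1 1 1 := by
    intro h
    apply ha2
    rw [sq]
    nth_rewrite 2 [h]
    exact hdiag
  refine ⟨b₀.1, ⟨b₀.1.1.1 0 0, b₀.1.1.1 1 1, hne, gdke_charpoly hb10⟩, ?_⟩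
  -- the centraliser
  have hcomm : ∀ c : ↥G, c ∈ centralizer {b₀.1} → c.1.1 * b₀.1.1.1 = b₀.1.1.1 * c.1.1 := by
    intro c hc
    have h1 : b₀.1 * c = c * b₀.1 := Subgroup.mem_centralizer_iff.1 hc b₀.1 rfl
    have h2 := congrArg (fun x : ↥G => x.1.1) h1
    exact h2.symm
  have hcB : ∀ c : ↥G, c ∈ centralizer {b₀.1} → c ∈ (dkBgl k).subgroupOf G := by
    intro c hc
    rw [Subgroup.mem_subgroupOf]
    exact gdke_comm_upper hb10 hne (hcomm c hc)
  have hcard : Nat.card (centralizer {b₀.1}) = Nat.card (gdkeChar G hdet).range := by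
    refine Nat.card_congr (Equiv.ofBijective
      (fun c : centralizer {b₀.1} =>
        (⟨gdkeChar G hdet ⟨c.1, hcB c.1 c.2⟩, ⟨_, rfl⟩⟩ : (gdkeChar G hdet).range)) ⟨?_, ?_⟩)
    · intro c c' hcc
      have h00 : c.1.1.1 0 0 = c'.1.1.1 0 0 := by
        have h := congrArg (fun y : (gdkeChar G hdet).range => ((y : kˣ) : k)) hcc
        exact h
      have hc10 : c.1.1.1 1 0 = 0 := hcB c.1 c.2
      have hc'10 : c'.1.1.1 1 0 = 0 := hcB c'.1 c'.2
      have hd := gdke_diag_mul hc10 (hdet _ c.1.2)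
      have hd' := gdke_diag_mul hc'10 (hdet _ c'.1.2)
      have h00ne : c.1.1.1 0 0 ≠ 0 := gdke_ne_zero hc10 (hdet _ c.1.2)
      have h11 : c.1.1.1 1 1 = c'.1.1.1 1 1 := by
        apply mul_left_cancel₀ h00ne
        rw [hd, h00, hd']
      have he := gdke_comm_entry (hcomm c.1 c.2)
      have he' := gdke_comm_entry (hcomm c'.1 c'.2)
      have hsub : b₀.1.1.1 1 1 - b₀.1.1.1 0 0 ≠ 0 := sub_ne_zero.2 (Ne.symm hne)
      have h01 : c.1.1.1 0 1 = c'.1.1.1 0 1 := by
        apply mul_right_cancel₀ hsub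
        rw [he, he', h00, h11]
      apply Subtype.ext
      apply Subtype.ext
      apply Units.ext
      ext i j
      fin_cases i <;> fin_cases j
      · exact h00
      · exact h01
      · exact hc10.trans hc'10.symm
      · exact h11
    · intro y
      obtain ⟨n, hn⟩ := Subgroup.mem_zpowers_iff.1 (ha y)
      have hmem : (b₀.1) ^ n ∈ centralizer {b₀.1} := by
        rw [Subgroup.mem_centralizer_iff]
        intro h hh
        rw [Set.mem_singleton_iff.1 hh]
        exact (Commute.self_zpow b₀.1 n).eq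
      refine ⟨⟨b₀.1 ^ n, hmem⟩, ?_⟩
      apply Subtype.ext
      show gdkeChar G hdet ⟨b₀.1 ^ n, _⟩ = (y : kˣ)
      have hpow : (⟨b₀.1 ^ n, hcB _ hmem⟩ : ↥((dkBgl k).subgroupOf G)) = b₀ ^ n := by
        apply Subtype.ext
        rfl
      rw [hpow, map_zpow, hb₀, ← hn]
      rfl
  rw [hcard]
  have h1 := (hB' p k G hG).2
  rw [gdke_card_B G hdet] at h1
  have hq : 0 < Nat.card (Xset G) := Nat.card_pos
  apply Nat.eq_of_mul_eq_mul_left hq
  rw [h1]
  ring

end Fermat.Agent.TW.G.Dk
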