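import Fermat.Agent.TW.G.Dickson.Plan

/-!
# TW-G / P9 Dickson, piece DkA

`stmtDkA : StmtDkA`: for `G ≤ GL₂(k)` with `det = 1` on `G`, the subgroup `Z = G ∩ {±1}` is
central and the centraliser of every element outside `Z` is commutative.

The centraliser of a non-scalar `2 × 2` matrix `M` is `k[M] = {α + a M}` (`gdka_mem_span`).
-/

set_option autoImplicit false

namespace Fermat.Agent.TW.G.Dk

open Matrix Polynomial Subgroup Fermat.Agent.TW.G.Sel

section Alg

variable {k : Type} [Field k]

/-- a `2 × 2` matrix is non-scalar -/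
def GdkaNonScalar (M : M2 k) : Prop := M 0 1 ≠ 0 ∨ M 1 0 ≠ 0 ∨ M 0 0 ≠ M 1 1

/-- the entries of the commutation relation -/
lemma gdka_comm_entries {M X : M2 k} (h : X * M = M * X) :
    X 0 1 * M 1 0 = M 0 1 * X 1 0 ∧
    M 0 1 * (X 0 0 - X 1 1) = X 0 1 * (M 0 0 - M 1 1) ∧
    X 1 0 * (M 0 0 - M 1 1) = M 1 0 * (X 0 0 - X 1 1) := by
  have h00 := congrFun (congrFun h 0) 0
  have h01 := congrFun (congrFun h 0) 1
  have h10 := congrFun (congrFun h 1) 0
  simp only [Matrix.mul_apply, Fin.sum_univ_two] at h00 h01 h10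
  refine ⟨?_, ?_, ?_⟩
  · linear_combination h00
  · linear_combination h01
  · linear_combination h10

/-- the centraliser of a non-scalar matrix `M` is `k[M]` -/
theorem gdka_mem_span {M X : M2 k} (hM : GdkaNonScalar M) (h : X * M = M * X) :
    ∃ α a : k, X = α • (1 : M2 k) + a • M := by
  obtain ⟨h1, h2, h3⟩ := gdka_comm_entries h
  have key : ∀ a : k, a * M 0 1 = X 0 1 → a * M 1 0 = X 1 0 →
      a * (M 0 0 - M 1 1) = X 0 0 - X 1 1 →
      X = (X 0 0 - a * M 0 0) • (1 : M2 k) + a • M := by
    intro a e1 e2 e3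
    refine Matrix.ext fun i j => ?_
    fin_cases i <;> fin_cases j
    · simp
    · simp [e1]
    · simp [e2]
    · simp only [Fin.mk_one, Fin.isValue, Matrix.add_apply, Matrix.smul_apply,
        Matrix.one_apply_eq, smul_eq_mul, mul_one]
      linear_combination e3
  rcases hM with hm | hm | hm
  · refine ⟨_, _, key (X 0 1 / M 0 1) ?_ ?_ ?_⟩
    · field_simp
    · field_simp
      linear_combination h1
    · field_simp
      linear_combination -h2
  · refine ⟨_, _, key (X 1 0 / M 1 0) ?_ ?_ ?_⟩
    · field_simp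
      linear_combination -h1
    · field_simp
    · field_simp
      linear_combination h3
  · have hm' : M 0 0 - M 1 1 ≠ 0 := sub_ne_zero.mpr hm
    refine ⟨_, _, key ((X 0 0 - X 1 1) / (M 0 0 - M 1 1)) ?_ ?_ ?_⟩
    · field_simp
      linear_combination h2
    · field_simp
      linear_combination -h3
    · field_simp

/-- two matrices commuting with a non-scalar matrix commute -/
theorem gdka_comm_of_nonscalar {M X Y : M2 k} (hM : GdkaNonScalar M) (hX : X * M = M * X)
    (hY : Y * M = M * Y) : X * Y = Y * X := by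
  obtain ⟨α, a, rfl⟩ := gdka_mem_span hM hX
  obtain ⟨β, b, rfl⟩ := gdka_mem_span hM hY
  have hc : Commute M (β • (1 : M2 k) + b • M) :=
    ((Commute.one_right M).smul_right β).add_right ((Commute.refl M).smul_right b)
  have : Commute (α • (1 : M2 k) + a • M) (β • (1 : M2 k) + b • M) :=
    ((Commute.one_left _).smul_left α).add_left (hc.smul_left a)
  exact this

/-- a matrix of determinant `1` which is not `±1` is non-scalar -/
theorem gdka_nonscalar_of_det {M : M2 k} (hdet : M.det = 1) (h1 : M ≠ 1) (h2 : M ≠ -1) :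
    GdkaNonScalar M := by
  by_contra hns
  unfold GdkaNonScalar at hns
  simp only [not_or, ne_eq, not_not] at hns
  obtain ⟨e1, e2, e3⟩ := hns
  rw [Matrix.det_fin_two, e1, e2, ← e3] at hdet
  have hsq : (M 0 0 - 1) * (M 0 0 + 1) = 0 := by linear_combination hdet
  rcases mul_eq_zero.mp hsq with h | h
  · apply h1
    have h00 : M 0 0 = 1 := by linear_combination h
    refine Matrix.ext fun i j => ?_
    fin_cases i <;> fin_cases j
    · simpa using h00
    · simpa using e1
    · simpa using e2
    · simpa using e3.symm.trans h00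
  · apply h2
    have h00 : M 0 0 = -1 := by linear_combination h
    refine Matrix.ext fun i j => ?_
    fin_cases i <;> fin_cases j
    · simpa using h00
    · simpa using e1
    · simpa using e2
    · simpa using e3.symm.trans h00

end Alg

/-- the elements of `G` outside `Z` are non-scalar -/
theorem gdka_nonscalar {k : Type} [Field k] {p : ℕ} {G : Subgroup (GL (Fin 2) k)}
    (hG : DkHyp p G) (g : ↥G) (hg : g ∉ dkZ G) : GdkaNonScalar g.1.1 := by
  apply gdka_nonscalar_of_det (hG.det_one g.1 g.2)
  · intro h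
    exact hg (Subgroup.mem_subgroupOf.mpr (Or.inl h))
  · intro h
    exact hg (Subgroup.mem_subgroupOf.mpr (Or.inr h))

/-- **DkA.** -/
theorem stmtDkA : StmtDkA := by
  intro p _ k _ _ _ G hG
  refine ⟨fun z hz => ?_, fun g hg x y hx hy => ?_⟩
  · rw [Subgroup.mem_center_iff]
    intro x
    have hz' : z.1.1 = 1 ∨ z.1.1 = -1 := Subgroup.mem_subgroupOf.mp hz
    apply Subtype.ext
    apply Units.ext
    show x.1.1 * z.1.1 = z.1.1 * x.1.1
    rcases hz' with h | h <;> rw [h] <;> simp
  · have hns := gdka_nonscalar hG g hg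
    have hx' : x.1.1 * g.1.1 = g.1.1 * x.1.1 := by
      have := (gdk_mem_centralizer_iff g x).mp hx
      have h2 := congrArg (fun t : ↥G => t.1.1) this
      exact h2.symm
    have hy' : y.1.1 * g.1.1 = g.1.1 * y.1.1 := by
      have := (gdk_mem_centralizer_iff g y).mp hy
      have h2 := congrArg (fun t : ↥G => t.1.1) this
      exact h2.symm
    apply Subtype.ext
    apply Units.ext
    exact gdka_comm_of_nonscalar hns hx' hy'

end Fermat.Agent.TW.G.Dk
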