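import Fermat.Agent.TW.G.Dickson.Plan

/-!
# TW-G / P9 G-dickson, piece DkF (helper26): assembly

`stmtDkF : StmtDkF`: the counting form of Dickson's theorem (`StmtDickson`) from the concrete
pieces DkA–DkE and the abstract class equation.
-/

set_option autoImplicit false

namespace Fermat.Agent.TW.G.Dk

open Matrix Polynomial Subgroup Fermat.Agent.TW.G.Sel

/-- the matrices of determinant 1 in `GL₂(k)` -/
def dkSLgl (k : Type) [Field k] : Subgroup (GL (Fin 2) k) where
  carrier := {g | g.1.det = 1}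
  one_mem' := by show (1 : GL (Fin 2) k).1.det = 1; simp
  mul_mem' := by
    intro a b ha hb
    change a.1.det = 1 at ha
    change b.1.det = 1 at hb
    show (a * b).1.det = 1
    rw [Units.val_mul, Matrix.det_mul, ha, hb, mul_one]
  inv_mem' := by
    intro a ha
    change a.1.det = 1 at ha
    show (a⁻¹).1.det = 1
    have h : (a⁻¹ : GL (Fin 2) k).1 * a.1 = 1 := by
      rw [← Units.val_mul, inv_mul_cancel]; rfl
    have h2 := congrArg Matrix.det h
    rw [Matrix.det_mul, ha, mul_one, Matrix.det_one] at h2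
    exact h2

variable {k : Type} [Field k]

lemma dkf_uU_det (x : k) : (uU x).det = 1 := by
  simp [uU, Matrix.det_fin_two]

lemma dkf_Xset_inf (G : Subgroup (GL (Fin 2) k)) : Xset (G ⊓ dkSLgl k) = Xset G := by
  ext x
  constructor
  · rintro ⟨g, hg, hx⟩
    exact ⟨g, hg.1, hx⟩
  · rintro ⟨g, hg, hx⟩
    refine ⟨g, ⟨hg, ?_⟩, hx⟩
    show g.1.det = 1
    rw [hx]; exact dkf_uU_det x

lemma dkf_Asq_inf (G : Subgroup (GL (Fin 2) k)) : Asq (G ⊓ dkSLgl k) = Asq G := by
  ext s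
  constructor
  · rintro ⟨g, hg, h1, h2, h3⟩
    exact ⟨g, hg.1, h1, h2, h3⟩
  · rintro ⟨g, hg, h1, h2, h3⟩
    exact ⟨g, ⟨hg, h2⟩, h1, h2, h3⟩

/-- conjugating `u_x` by a matrix that is not upper triangular gives a matrix that is not upper
triangular -/
lemma dkf_conj_entry (h : GL (Fin 2) k) (x : k) :
    (h.1 * uU x * (h⁻¹ : GL (Fin 2) k).1) 1 0 * h.1.det = -(x * h.1 1 0 ^ 2) := by
  have hinv : (h⁻¹ : GL (Fin 2) k).1 = (h.1)⁻¹ := Matrix.coe_units_inv h
  have hdet : h.1.det ≠ 0 := by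
    have := h.isUnit
    exact (Matrix.isUnit_iff_isUnit_det _).1 this |>.ne_zero
  rw [hinv, Matrix.inv_def, Matrix.adjugate_fin_two]
  simp only [uU, Ring.inverse_eq_inv', Matrix.mul_apply, Fin.sum_univ_two, Matrix.smul_apply,
    Matrix.of_apply, Matrix.cons_val', Matrix.cons_val_zero, Matrix.cons_val_one,
    Matrix.empty_val', Matrix.cons_val_fin_one, smul_eq_mul]
  field_simp
  ring

lemma dkf_det_conj (h g : GL (Fin 2) k) : (h * g * h⁻¹).1.det = g.1.det := by
  have h1 : h.1.det * (h⁻¹ : GL (Fin 2) k).1.det = 1 := by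
    rw [← Matrix.det_mul, ← Units.val_mul, mul_inv_cancel]; simp
  rw [Units.val_mul, Units.val_mul, Matrix.det_mul, Matrix.det_mul]
  calc h.1.det * g.1.det * (h⁻¹ : GL (Fin 2) k).1.det
      = g.1.det * (h.1.det * (h⁻¹ : GL (Fin 2) k).1.det) := by ring
    _ = g.1.det := by rw [h1, mul_one]

lemma dkf_charpoly_conj (h g : GL (Fin 2) k) : (h * g * h⁻¹).1.charpoly = g.1.charpoly := by
  have h1 : (h * g * h⁻¹).1 = h.1 * g.1 * h.1⁻¹ := by
    rw [Units.val_mul, Units.val_mul, Matrix.coe_units_inv]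
  rw [h1]
  have hu : IsUnit h.1 := h.isUnit
  have hdet : IsUnit h.1.det := (Matrix.isUnit_iff_isUnit_det _).1 hu
  exact Matrix.charpoly_units_conj (Matrix.nonsingInvUnit h.1 hdet) g.1

lemma dkf_uU_charpoly (x : k) : (uU x).charpoly = (X - C 1) * (X - C 1) := by
  rw [Matrix.charpoly_fin_two]
  simp only [uU, Matrix.trace_fin_two, Matrix.det_fin_two, Matrix.of_apply, Matrix.cons_val',
    Matrix.cons_val_zero, Matrix.cons_val_one, Matrix.empty_val', Matrix.cons_val_fin_one]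
  simp only [map_one, mul_zero, sub_zero, mul_one, map_add]
  ring

/-- a matrix in `dkZUgl` does not have distinct eigenvalues -/
lemma dkf_not_distinct_of_mem {g : GL (Fin 2) k} (hg : g ∈ dkZUgl k) : ¬ HasDistinctEig g.1 := by
  rintro ⟨α, β, hne, hcp⟩
  obtain ⟨h10, h01, h00⟩ := hg
  rw [Matrix.charpoly_fin_two] at hcp
  have htr : g.1.trace = 2 * g.1 0 0 := by
    rw [Matrix.trace_fin_two, ← h01]; ring
  have hdet : g.1.det = g.1 0 0 ^ 2 := by
    rw [Matrix.det_fin_two, h10, ← h01]; ring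
  rw [htr, hdet] at hcp
  -- X² - 2aX + a² = (X - α)(X - β): evaluate at a
  have h1 := congrArg (Polynomial.eval (g.1 0 0)) hcp
  simp only [eval_add, eval_sub, eval_pow, eval_X, eval_mul, eval_C] at h1
  have h2 : (g.1 0 0 - α) * (g.1 0 0 - β) = 0 := by rw [← h1]; ring
  -- coefficient comparison: α + β = 2a, αβ = a²
  have h3 := congrArg (Polynomial.eval α) hcp
  simp only [eval_add, eval_sub, eval_pow, eval_X, eval_mul, eval_C] at h3
  have h4 : (α - g.1 0 0) ^ 2 = 0 := by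
    have : (α - g.1 0 0) ^ 2 = α ^ 2 - 2 * g.1 0 0 * α + g.1 0 0 ^ 2 := by ring
    rw [this, h3]; ring
  have h5 := congrArg (Polynomial.eval β) hcp
  simp only [eval_add, eval_sub, eval_pow, eval_X, eval_mul, eval_C] at h5
  have h6 : (β - g.1 0 0) ^ 2 = 0 := by
    have : (β - g.1 0 0) ^ 2 = β ^ 2 - 2 * g.1 0 0 * β + g.1 0 0 ^ 2 := by ring
    rw [this, h5]; ring
  have h7 : α = g.1 0 0 := sub_eq_zero.1 (pow_eq_zero_iff (by norm_num) |>.1 h4)
  have h8 : β = g.1 0 0 := sub_eq_zero.1 (pow_eq_zero_iff (by norm_num) |>.1 h6)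
  exact hne (h7.trans h8.symm)

theorem stmtDkF : StmtDkF := by
  intro hA hB hB' hC hD1 hD2 hE p _ k _ _ _ hp2 G hsplit hnontri
  classical
  by_cases htriv : ∀ x ∈ Xset G, x = 0
  · -- only the trivial unipotent
    have hsub : Subsingleton (Xset G) :=
      ⟨fun a b => Subtype.ext ((htriv a.1 a.2).trans (htriv b.1 b.2).symm)⟩
    have : Nat.card (Xset G) ≤ 1 := Finite.card_le_one_iff_subsingleton.2 hsub
    omega
  · push Not at htriv
    obtain ⟨x₀, ⟨g₀, hg₀G, hg₀x⟩, hx₀⟩ := htriv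
    obtain ⟨h, hhG, hh⟩ := hnontri
    set G₁ : Subgroup (GL (Fin 2) k) := G ⊓ dkSLgl k with hG₁
    have hg₀G₁ : g₀ ∈ G₁ := ⟨hg₀G, by show g₀.1.det = 1; rw [hg₀x]; exact dkf_uU_det x₀⟩
    have hyp : DkHyp p G₁ :=
      { odd := hp2
        det_one := fun g hg => hg.2
        split := fun g hg => hsplit g hg.1
        uni := ⟨g₀, hg₀G₁, x₀, hx₀, hg₀x⟩
        nontri := by
          refine ⟨h * g₀ * h⁻¹, ⟨G.mul_mem (G.mul_mem hhG hg₀G) (G.inv_mem hhG), ?_⟩, ?_⟩
          · show (h * g₀ * h⁻¹).1.det = 1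
            rw [dkf_det_conj]; exact hg₀G₁.2
          · intro h0
            have := dkf_conj_entry h x₀
            rw [Units.val_mul, Units.val_mul, hg₀x] at h0
            rw [h0, zero_mul] at this
            have h2 : x₀ * h.1 1 0 ^ 2 = 0 := by
              have := congrArg Neg.neg this
              simpa using this.symm
            rcases mul_eq_zero.1 h2 with h3 | h3
            · exact hx₀ h3
            · exact hh (pow_eq_zero_iff (by norm_num) |>.1 h3) }
    obtain ⟨hZc, hCA⟩ := hA p k G₁ hyp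
    let g₁ : ↥G₁ := ⟨g₀, hg₀G₁⟩
    have hg₁ : ∃ x : k, x ≠ 0 ∧ g₁.1.1 = uU x := ⟨x₀, hx₀, hg₀x⟩
    obtain ⟨hCent, hNorm⟩ := hB p k G₁ hyp g₁ hg₁
    obtain ⟨hcZU, hcB⟩ := hB' p k G₁ hyp
    obtain ⟨m, hm, hcG⟩ := hC p k G₁ hyp
    have hg₁Z : g₁ ∉ dkZ G₁ := by
      intro hmem
      have hmem' : g₀ ∈ dkZgl k := hmem
      have h01 : g₀.1 0 1 = x₀ := by rw [hg₀x]; simp [uU]
      rcases hmem' with h1 | h1
      · rw [h1] at h01; simp at h01; exact hx₀ h01.symm
      · rw [h1] at h01; simp at h01; exact hx₀ h01.symm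
    have key := gdk_class_equation (dkZ G₁) hZc hCA g₁ hg₁Z (Nat.card (dkZ G₁))
      (Nat.card (Xset G₁)) (Nat.card (Asq G₁)) m rfl (by rw [hCent, hcZU])
      (by rw [hNorm, hcB]) (by rw [hcG, hcB]) hm ?_ ?_
    · rw [dkf_Xset_inf, dkf_Asq_inf] at key
      exact key
    · -- hν
      intro g hgZ hgK
      by_cases hd : HasDistinctEig g.1.1
      · exact hD1 p k G₁ hyp g hd
      · exfalso
        obtain ⟨x, hx⟩ := hD2 hB' hC p k G₁ hyp g hgZ hd
        exact hgK ⟨hgZ, x, by rw [hCent]; exact hx⟩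
    · -- hb
      intro ht
      obtain ⟨b, hbd, hbc⟩ := hE hB' p k G₁ hyp ht
      refine ⟨b, ?_, ?_, hbc⟩
      · intro hbZ
        have hbZ' : b.1 ∈ dkZgl k := hbZ
        apply dkf_not_distinct_of_mem (g := b.1) _ hbd
        rcases hbZ' with h1 | h1
        · refine ⟨by rw [h1]; simp, by rw [h1]; simp, Or.inl (by rw [h1]; simp)⟩
        · refine ⟨by rw [h1]; simp, by rw [h1]; simp, Or.inr (by rw [h1]; simp)⟩
      · rintro ⟨-, x, hx⟩
        rw [hCent] at hx
        have hx' : (x⁻¹ * b * x).1 ∈ dkZUgl k := hx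
        apply dkf_not_distinct_of_mem hx'
        obtain ⟨α, β, hne, hcp⟩ := hbd
        refine ⟨α, β, hne, ?_⟩
        rw [← hcp]
        have : (x⁻¹ * b * x).1 = x.1⁻¹ * b.1 * (x.1⁻¹)⁻¹ := by simp
        rw [this]
        exact dkf_charpoly_conj _ _

end Fermat.Agent.TW.G.Dk
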