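import Fermat.Agent.TW.G.Dickson.Plan

/-!
# TW-G / P9 G-dickson, piece DkC (helper86): the index of the Borel subgroup

`stmtDkC : StmtDkC`: for `G ≤ GL₂(k)` not contained in the upper triangular matrices,
`|G| = (1 + m q)·|B|` with `m ≥ 1`, where `B = G ∩ upper triangular`, `q = #{x : u_x ∈ G}`.

Proof: `U × B` (`U = {u_x ∈ G}`) acts on `G ∖ B` by `(u, b)·g = u g b⁻¹`, with trivial stabilisers
(`u_x g = g b`, `g₁₀ ≠ 0`, `b₁₀ = 0`: entry `(1,0)` gives `b₀₀ = 1`, entry `(0,0)` gives `x = 0`).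
-/

set_option autoImplicit false

namespace Fermat.Agent.TW.G.Dk

open Matrix Subgroup Fermat.Agent.TW.G.Sel

variable {k : Type} [Field k]

lemma gdkc_uU_zero : uU (0 : k) = 1 := by
  ext i j
  fin_cases i <;> fin_cases j <;> simp [uU]

lemma gdkc_uU_mul (x y : k) : uU x * uU y = uU (x + y) := by
  ext i j
  fin_cases i <;> fin_cases j <;> simp [uU, Matrix.mul_apply, Fin.sum_univ_two, add_comm]

lemma gdkc_uU_inj {x y : k} (h : uU x = uU y) : x = y := by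
  have := congrFun (congrFun h 0) 1
  simpa [uU] using this

/-- the inverse of a unit with matrix `u_x` -/
lemma gdkc_inv_uU (g : GL (Fin 2) k) (x : k) (h : g.1 = uU x) : (g⁻¹).1 = uU (-x) := by
  have h1 : g.1 * uU (-x) = 1 := by rw [h, gdkc_uU_mul, add_neg_cancel, gdkc_uU_zero]
  calc (g⁻¹).1 = (g⁻¹).1 * (g.1 * uU (-x)) := by rw [h1, mul_one]
    _ = ((g⁻¹).1 * g.1) * uU (-x) := by rw [mul_assoc]
    _ = uU (-x) := by rw [← Units.val_mul, inv_mul_cancel, Units.val_one, one_mul]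

/-- the upper unipotent matrices in `GL₂(k)` -/
def gdkcUgl (k : Type) [Field k] : Subgroup (GL (Fin 2) k) where
  carrier := {g | ∃ x : k, g.1 = uU x}
  one_mem' := ⟨0, by rw [gdkc_uU_zero]; rfl⟩
  mul_mem' := by
    rintro a b ⟨x, hx⟩ ⟨y, hy⟩
    exact ⟨x + y, by rw [Units.val_mul, hx, hy, gdkc_uU_mul]⟩
  inv_mem' := by
    rintro a ⟨x, hx⟩
    exact ⟨-x, gdkc_inv_uU a x hx⟩

lemma gdkc_mem_Ugl (g : GL (Fin 2) k) : g ∈ gdkcUgl k ↔ ∃ x : k, g.1 = uU x := Iff.rfl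

lemma gdkc_mem_Bgl (g : GL (Fin 2) k) : g ∈ dkBgl k ↔ g.1 1 0 = 0 := Iff.rfl

lemma gdkc_Ugl_le_Bgl : gdkcUgl k ≤ dkBgl k := by
  rintro g ⟨x, hx⟩
  rw [gdkc_mem_Bgl, hx]
  simp [uU]

/-- `#U = q` -/
lemma gdkc_card_U (G : Subgroup (GL (Fin 2) k)) :
    Nat.card ((gdkcUgl k).subgroupOf G) = Nat.card (Xset G) := by
  have hx : ∀ u : ↥((gdkcUgl k).subgroupOf G), u.1.1.1 = uU (u.1.1.1 0 1) := by
    intro u
    obtain ⟨x, hx⟩ := (gdkc_mem_Ugl _).1 (mem_subgroupOf.1 u.2)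
    rw [hx]
    simp [uU]
  refine Nat.card_congr (Equiv.ofBijective
    (fun u => (⟨u.1.1.1 0 1, u.1.1, u.1.2, hx u⟩ : Xset G)) ⟨?_, ?_⟩)
  · intro u v huv
    have h01 : u.1.1.1 0 1 = v.1.1.1 0 1 := congrArg Subtype.val huv
    apply Subtype.ext
    apply Subtype.ext
    apply Units.ext
    rw [hx u, hx v, h01]
  · rintro ⟨x, g, hg, hgx⟩
    refine ⟨⟨⟨g, hg⟩, mem_subgroupOf.2 ⟨x, hgx⟩⟩, ?_⟩
    apply Subtype.ext
    show g.1 0 1 = x
    rw [hgx]
    simp [uU]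

/-- the action of `U × B` on `G ∖ B` by `(u, b)·g = u g b⁻¹` -/
@[reducible] noncomputable def gdkcAct (G : Subgroup (GL (Fin 2) k)) :
    MulAction (↥((gdkcUgl k).subgroupOf G) × ↥((dkBgl k).subgroupOf G))
      {g : ↥G // g ∉ (dkBgl k).subgroupOf G} where
  smul h g := ⟨h.1.1 * g.1 * (h.2.1)⁻¹, fun hmem => g.2 (by
    have hu : h.1.1 ∈ (dkBgl k).subgroupOf G :=
      mem_subgroupOf.2 (gdkc_Ugl_le_Bgl (mem_subgroupOf.1 h.1.2))
    have h1 := ((dkBgl k).subgroupOf G).mul_mem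
      (((dkBgl k).subgroupOf G).mul_mem (((dkBgl k).subgroupOf G).inv_mem hu) hmem) h.2.2
    have e : (h.1.1)⁻¹ * (h.1.1 * g.1 * (h.2.1)⁻¹) * h.2.1 = g.1 := by group
    rwa [e] at h1)⟩
  one_smul g := by
    apply Subtype.ext
    show (1 : ↥G) * g.1 * (1 : ↥G)⁻¹ = g.1
    group
  mul_smul h h' g := by
    apply Subtype.ext
    show (h.1.1 * h'.1.1) * g.1 * (h.2.1 * h'.2.1)⁻¹ = h.1.1 * (h'.1.1 * g.1 * (h'.2.1)⁻¹) * (h.2.1)⁻¹
    group

lemma gdkc_smul_val (G : Subgroup (GL (Fin 2) k))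
    (h : ↥((gdkcUgl k).subgroupOf G) × ↥((dkBgl k).subgroupOf G))
    (g : {g : ↥G // g ∉ (dkBgl k).subgroupOf G}) :
    letI := gdkcAct G
    (h • g).1 = h.1.1 * g.1 * (h.2.1)⁻¹ := rfl

/-- the stabilisers are trivial -/
lemma gdkc_stabilizer (G : Subgroup (GL (Fin 2) k))
    (g : {g : ↥G // g ∉ (dkBgl k).subgroupOf G}) :
    letI := gdkcAct G
    MulAction.stabilizer (↥((gdkcUgl k).subgroupOf G) × ↥((dkBgl k).subgroupOf G)) g = ⊥ := by
  let _ := gdkcAct G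
  rw [Subgroup.eq_bot_iff_forall]
  rintro ⟨u, b⟩ hub
  rw [MulAction.mem_stabilizer_iff] at hub
  have h1 : u.1 * g.1 * (b.1)⁻¹ = g.1 := congrArg Subtype.val hub
  have h2 : u.1 * g.1 = g.1 * b.1 := by
    calc u.1 * g.1 = (u.1 * g.1 * (b.1)⁻¹) * b.1 := by group
      _ = g.1 * b.1 := by rw [h1]
  -- to matrices
  have h3 : u.1.1.1 * g.1.1.1 = g.1.1.1 * b.1.1.1 := by
    have := congrArg (fun x : ↥G => x.1.1) h2
    simpa using this
  obtain ⟨x, hx⟩ := (gdkc_mem_Ugl _).1 (mem_subgroupOf.1 u.2)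
  have hb : b.1.1.1 1 0 = 0 := (gdkc_mem_Bgl _).1 (mem_subgroupOf.1 b.2)
  have hg : g.1.1.1 1 0 ≠ 0 := fun h0 => g.2 (mem_subgroupOf.2 ((gdkc_mem_Bgl _).2 h0))
  have e10 := congrFun (congrFun h3 1) 0
  have e00 := congrFun (congrFun h3 0) 0
  rw [hx] at e10 e00
  simp only [Matrix.mul_apply, Fin.sum_univ_two, hb, uU, Matrix.of_apply, Matrix.cons_val',
    Matrix.cons_val_zero, Matrix.cons_val_one, Matrix.empty_val', Matrix.cons_val_fin_one,
    mul_zero, add_zero, zero_mul, zero_add, one_mul] at e10 e00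
  have hb00 : b.1.1.1 0 0 = 1 := by
    have : g.1.1.1 1 0 * (b.1.1.1 0 0 - 1) = 0 := by linear_combination -e10
    rcases mul_eq_zero.1 this with h | h
    · exact absurd h hg
    · exact sub_eq_zero.1 h
  have hx0 : x = 0 := by
    rw [hb00, mul_one] at e00
    have : x * g.1.1.1 1 0 = 0 := by linear_combination e00
    rcases mul_eq_zero.1 this with h | h
    · exact h
    · exact absurd h hg
  have hu1 : u = 1 := by
    apply Subtype.ext
    apply Subtype.ext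
    apply Units.ext
    rw [hx, hx0, gdkc_uU_zero]
    rfl
  have hb1 : b = 1 := by
    rw [hu1] at h2
    have h4 : g.1 * b.1 = g.1 * 1 := by
      rw [← h2]
      simp
    exact Subtype.ext (mul_left_cancel h4)
  rw [hu1, hb1]
  rfl

/-- (DkC) -/
theorem stmtDkC : StmtDkC := by
  intro p _ k _ _ _ G hyp
  classical
  let _ := gdkcAct G
  have e := MulAction.selfEquivOrbitsQuotientProd
    (G := ↥((gdkcUgl k).subgroupOf G) × ↥((dkBgl k).subgroupOf G))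
    (X := {g : ↥G // g ∉ (dkBgl k).subgroupOf G}) (gdkc_stabilizer G)
  have hX : Nat.card {g : ↥G // g ∉ (dkBgl k).subgroupOf G} =
      Nat.card (Quotient (MulAction.orbitRel
        (↥((gdkcUgl k).subgroupOf G) × ↥((dkBgl k).subgroupOf G))
        {g : ↥G // g ∉ (dkBgl k).subgroupOf G})) *
      (Nat.card (Xset G) * Nat.card ((dkBgl k).subgroupOf G)) := by
    rw [Nat.card_congr e, Nat.card_prod, Nat.card_prod, gdkc_card_U]
  have hsum : Nat.card ↥G = Nat.card ((dkBgl k).subgroupOf G) +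
      Nat.card {g : ↥G // g ∉ (dkBgl k).subgroupOf G} := by
    rw [← Nat.card_sum]
    exact (Nat.card_congr (Equiv.sumCompl (fun g : ↥G => g ∈ (dkBgl k).subgroupOf G))).symm
  obtain ⟨g₀, hg₀G, hg₀⟩ := hyp.nontri
  have hne : Nonempty (Quotient (MulAction.orbitRel
      (↥((gdkcUgl k).subgroupOf G) × ↥((dkBgl k).subgroupOf G))
      {g : ↥G // g ∉ (dkBgl k).subgroupOf G})) :=
    ⟨Quotient.mk'' ⟨⟨g₀, hg₀G⟩, fun h => hg₀ ((gdkc_mem_Bgl _).1 (mem_subgroupOf.1 h))⟩⟩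
  refine ⟨Nat.card (Quotient (MulAction.orbitRel
      (↥((gdkcUgl k).subgroupOf G) × ↥((dkBgl k).subgroupOf G))
      {g : ↥G // g ∉ (dkBgl k).subgroupOf G})), Nat.card_pos, ?_⟩
  rw [hsum, hX]
  ring

end Fermat.Agent.TW.G.Dk
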