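import Fermat.Agent.TW.G.Dickson.Central

/-!
# TW-G / P9 Dickson, piece DkD1

`stmtDkD1 : StmtDkD1`: for `g ∈ G` with two distinct eigenvalues, the centraliser of `g` has
index at most `2` in its normaliser.

If `x` normalises `C(g)`, then `g' = x g x⁻¹ ∈ C(g)` commutes with `g` and has the same trace and
determinant; as `g' ∈ k[g]`, this forces `g' = g` or `g' = tr(g) - g` (`gdkd1_conj_cases`).
So the normaliser is contained in `C(g) ∪ x₀ C(g)`.
-/

set_option autoImplicit false

namespace Fermat.Agent.TW.G.Dk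

open Matrix Polynomial Subgroup Fermat.Agent.TW.G.Sel

section Alg

variable {k : Type} [Field k]

/-- trace and determinant of a matrix with given eigenvalues -/
theorem gdkd1_trace_det {M : M2 k} {α β : k} (hne : α ≠ β)
    (h : M.charpoly = (X - C α) * (X - C β)) : M.trace = α + β ∧ M.det = α * β := by
  rw [Matrix.charpoly_fin_two] at h
  have hα := congrArg (Polynomial.eval α) h
  have hβ := congrArg (Polynomial.eval β) h
  simp only [eval_add, eval_sub, eval_pow, eval_X, eval_mul, eval_C, sub_self, zero_mul,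
    mul_zero] at hα hβ
  have h1 : (α - β) * (α + β - M.trace) = 0 := by linear_combination hα - hβ
  have h2 : α + β - M.trace = 0 := (mul_eq_zero.mp h1).resolve_left (sub_ne_zero.mpr hne)
  have ht : M.trace = α + β := by linear_combination -h2
  refine ⟨ht, ?_⟩
  rw [ht] at hα
  linear_combination hα

/-- a matrix with two distinct eigenvalues is not scalar -/
theorem gdkd1_nonscalar {M : M2 k} {α β : k} (hne : α ≠ β)
    (h : M.charpoly = (X - C α) * (X - C β)) : GdkaNonScalar M := by
  obtain ⟨ht, hd⟩ := gdkd1_trace_det hne h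
  by_contra hns
  unfold GdkaNonScalar at hns
  simp only [not_or, ne_eq, not_not] at hns
  obtain ⟨e1, e2, e3⟩ := hns
  rw [Matrix.trace_fin_two, ← e3] at ht
  rw [Matrix.det_fin_two, e1, ← e3] at hd
  have : (α - β) ^ 2 = 0 := by
    have h1 : (α - β) ^ 2 = (α + β) ^ 2 - 4 * (α * β) := by ring
    rw [h1, ← ht, ← hd]
    ring
  exact sub_ne_zero.mpr hne (pow_eq_zero_iff (two_ne_zero) |>.mp this)

/-- a matrix commuting with `M` (distinct eigenvalues), with the same trace and determinant,
is `M` or `tr(M) - M` -/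
theorem gdkd1_conj_cases (h2 : (2 : k) ≠ 0) {M M' : M2 k} {α β : k} (hne : α ≠ β)
    (h : M.charpoly = (X - C α) * (X - C β)) (hcomm : M' * M = M * M')
    (htr : M'.trace = M.trace) (hdet : M'.det = M.det) :
    M' = M ∨ M' = M.trace • (1 : M2 k) - M := by
  obtain ⟨ht, hd⟩ := gdkd1_trace_det hne h
  obtain ⟨a, b, rfl⟩ := gdka_mem_span (gdkd1_nonscalar hne h) hcomm
  have e1 : 2 * a + b * M.trace = M.trace := by
    simp only [Matrix.trace_fin_two, Matrix.add_apply, Matrix.smul_apply, Matrix.one_apply_eq,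
      smul_eq_mul, mul_one] at htr ⊢
    linear_combination htr
  have e2 : a ^ 2 + a * b * M.trace + b ^ 2 * M.det = M.det := by
    simp only [Matrix.det_fin_two, Matrix.trace_fin_two, Matrix.add_apply, Matrix.smul_apply,
      Matrix.one_apply_eq, smul_eq_mul, mul_one, ne_eq, zero_ne_one, not_false_eq_true,
      one_ne_zero, Matrix.one_apply_ne, mul_zero, zero_add] at hdet ⊢
    linear_combination hdet
  have hdisc : M.trace ^ 2 - 4 * M.det ≠ 0 := by
    rw [ht, hd]
    have h1 : (α + β) ^ 2 - 4 * (α * β) = (α - β) ^ 2 := by ring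
    rw [h1]
    exact pow_ne_zero 2 (sub_ne_zero.mpr hne)
  have h3 : (1 - b ^ 2) * (M.trace ^ 2 - 4 * M.det) = 0 := by
    linear_combination 4 * e2 - (2 * a + b * M.trace + M.trace) * e1
  have h4 : (1 - b) * (1 + b) = 0 := by
    have := (mul_eq_zero.mp h3).resolve_right hdisc
    linear_combination this
  rcases mul_eq_zero.mp h4 with hb | hb
  · left
    have hb' : b = 1 := by linear_combination -hb
    subst hb'
    have ha : a = 0 := by
      have : 2 * a = 0 := by linear_combination e1
      exact (mul_eq_zero.mp this).resolve_left h2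
    rw [ha, zero_smul, zero_add, one_smul]
  · right
    have hb' : b = -1 := by linear_combination hb
    subst hb'
    have ha : a = M.trace := by
      have : 2 * (a - M.trace) = 0 := by linear_combination e1
      exact sub_eq_zero.mp ((mul_eq_zero.mp this).resolve_left h2)
    rw [ha, neg_one_smul, sub_eq_add_neg]

end Alg

/-- **DkD1.** -/
theorem stmtDkD1 : StmtDkD1 := by
  intro p _ k _ _ _ G hG g hdist
  obtain ⟨α, β, hne, hcp⟩ := hdist
  have h2 : (2 : k) ≠ 0 := Ring.two_ne_zero (by rw [ringChar.eq k p]; exact hG.odd)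
  -- conjugates of `g` inside the centraliser
  have key : ∀ x : ↥G, x ∈ normalizer (centralizer {g} : Set ↥G) →
      (x * g * x⁻¹).1.1 = g.1.1 ∨ (x * g * x⁻¹).1.1 = g.1.1.trace • (1 : M2 k) - g.1.1 := by
    intro x hx
    have hmem : x * g * x⁻¹ ∈ centralizer {g} :=
      (mem_normalizer_iff.mp hx g).mp (gdk_self_mem g)
    have hc := (gdk_mem_centralizer_iff g _).mp hmem
    have hc' : (x * g * x⁻¹).1.1 * g.1.1 = g.1.1 * (x * g * x⁻¹).1.1 :=
      (congrArg (fun t : ↥G => t.1.1) hc).symm
    have hval : (x * g * x⁻¹).1.1 = (x.1 : M2 k) * g.1.1 * ((x.1⁻¹ : GL (Fin 2) k) : M2 k) := rfl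
    refine gdkd1_conj_cases h2 hne hcp hc' ?_ ?_
    · rw [hval]; exact Matrix.trace_units_conj x.1 g.1.1
    · rw [hval]; exact Matrix.det_units_conj x.1 g.1.1
  have hfin : ∀ s : Set ↥G, s.Finite := fun s => Set.toFinite s
  rw [show Nat.card (normalizer (centralizer {g} : Set ↥G)) =
      ((normalizer (centralizer {g} : Set ↥G) : Subgroup ↥G) : Set ↥G).ncard from
      Nat.card_coe_set_eq _,
    show Nat.card (centralizer {g} : Subgroup ↥G) = ((centralizer {g} : Subgroup ↥G) : Set ↥G).ncard
      from Nat.card_coe_set_eq _]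
  by_cases hall : ∀ x : ↥G, x ∈ normalizer (centralizer {g} : Set ↥G) → x ∈ centralizer {g}
  · calc ((normalizer (centralizer {g} : Set ↥G) : Subgroup ↥G) : Set ↥G).ncard
        ≤ ((centralizer {g} : Subgroup ↥G) : Set ↥G).ncard :=
          Set.ncard_le_ncard (fun x hx => hall x hx) (hfin _)
      _ ≤ 2 * ((centralizer {g} : Subgroup ↥G) : Set ↥G).ncard := Nat.le_mul_of_pos_left _ two_pos
  · simp only [not_forall] at hall
    obtain ⟨x₀, hx₀N, hx₀C⟩ := hall
    have hnotC : ∀ x : ↥G, x ∈ normalizer (centralizer {g} : Set ↥G) → x ∉ centralizer {g} →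
        (x * g * x⁻¹).1.1 = g.1.1.trace • (1 : M2 k) - g.1.1 := by
      intro x hxN hxC
      refine (key x hxN).resolve_left fun h => hxC ?_
      rw [gdk_mem_centralizer_iff]
      have h' : x * g * x⁻¹ = g := Subtype.ext (Units.ext h)
      calc g * x = x * g * x⁻¹ * x := by rw [h']
        _ = x * g := by group
    have hsub : ((normalizer (centralizer {g} : Set ↥G) : Subgroup ↥G) : Set ↥G) ⊆
        ((centralizer {g} : Subgroup ↥G) : Set ↥G) ∪
          (fun y => x₀ * y) '' ((centralizer {g} : Subgroup ↥G) : Set ↥G) := by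
      intro x hx
      by_cases hxC : x ∈ centralizer {g}
      · exact Or.inl hxC
      · right
        refine ⟨x₀⁻¹ * x, ?_, by group⟩
        have e : x * g * x⁻¹ = x₀ * g * x₀⁻¹ :=
          Subtype.ext (Units.ext ((hnotC x hx hxC).trans (hnotC x₀ hx₀N hx₀C).symm))
        show x₀⁻¹ * x ∈ centralizer {g}
        rw [gdk_mem_centralizer_iff]
        calc g * (x₀⁻¹ * x) = x₀⁻¹ * (x₀ * g * x₀⁻¹) * x := by group
          _ = x₀⁻¹ * (x * g * x⁻¹) * x := by rw [e]
          _ = x₀⁻¹ * x * g := by group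
    calc ((normalizer (centralizer {g} : Set ↥G) : Subgroup ↥G) : Set ↥G).ncard
        ≤ (((centralizer {g} : Subgroup ↥G) : Set ↥G) ∪
          (fun y => x₀ * y) '' ((centralizer {g} : Subgroup ↥G) : Set ↥G)).ncard :=
          Set.ncard_le_ncard hsub (hfin _)
      _ ≤ ((centralizer {g} : Subgroup ↥G) : Set ↥G).ncard +
          ((fun y => x₀ * y) '' ((centralizer {g} : Subgroup ↥G) : Set ↥G)).ncard :=
          Set.ncard_union_le _ _
      _ ≤ ((centralizer {g} : Subgroup ↥G) : Set ↥G).ncard +
          ((centralizer {g} : Subgroup ↥G) : Set ↥G).ncard :=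
          Nat.add_le_add_left (Set.ncard_image_le (hfin _)) _
      _ = 2 * ((centralizer {g} : Subgroup ↥G) : Set ↥G).ncard := (two_mul _).symm

end Fermat.Agent.TW.G.Dk
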