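/-
TW-G / P9 G-dickson, piece DkD2 (helper35): every element of `G` without distinct eigenvalues is
conjugate in `G` to some `±u_x`.

`stmtDkD2 : StmtDkD2` (only `StmtDkC` is used).

Proof.  `g ∈ G` is split with `det g = 1`; without distinct eigenvalues its characteristic
polynomial is `(X - α)²`, `α² = 1`.  Cayley–Hamilton: `g² = 2α g - 1 = 1 + n` with `n² = 0`, so
`(g²)^p = 1` and `⟨g²⟩` is a `p`-group.  It acts on `G / B` (`B` = the upper triangular elements of
`G`), a set with `[G : B] = 1 + m q` elements (DkC), and `p ∣ q` since `X` is a nonzero additive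
subgroup of `k`.  So there is a fixed point `x B`: `x⁻¹ g² x ∈ B`.  For `w = x⁻¹ g x`:
`w² = 2α w - 1`, so `2α w₁₀ = (w²)₁₀ = 0`, `w` is upper triangular with `w₀₀ w₁₁ = 1` and
`w₀₀ + w₁₁ = 2α`, hence `w₀₀ = w₁₁ = α = ±1`.
-/
import Fermat.Agent.TW.G.Dickson.Plan
import Fermat.Agent.TW.G.BorelBasic

set_option autoImplicit false

namespace Fermat.Agent.TW.G.Dk

open Matrix Polynomial Subgroup Fermat.Agent.TW.G.Sel

variable {k : Type} [Field k]

/-- trace and determinant from a factorisation of the characteristic polynomial -/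
theorem gdkd2_trace_det {g : M2 k} {α β : k} (h : g.charpoly = (X - C α) * (X - C β)) :
    g.trace = α + β ∧ g.det = α * β := by
  rw [Matrix.charpoly_fin_two] at h
  have e : (X - C α) * (X - C β) = X ^ 2 - C (α + β) * X + C (α * β) := by
    simp only [map_add, map_mul]
    ring
  rw [e] at h
  have h1 := congrArg (fun f : k[X] => f.coeff 1) h
  have h0 := congrArg (fun f : k[X] => f.coeff 0) h
  simp only [coeff_add, coeff_sub, coeff_X_pow, coeff_C_mul_X, coeff_C] at h1 h0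
  simp at h1 h0
  exact ⟨by linear_combination -h1, h0⟩

/-- Cayley–Hamilton for `2 × 2` matrices -/
theorem gdkd2_cayley (g : M2 k) : g * g = g.trace • g - g.det • (1 : M2 k) := by
  ext i j
  fin_cases i <;> fin_cases j <;>
    simp [Matrix.mul_apply, Fin.sum_univ_two, Matrix.trace_fin_two, Matrix.det_fin_two] <;> ring

/-- the shape of a split matrix of determinant `1` without distinct eigenvalues -/
theorem gdkd2_shape {g : M2 k} (hs : IsSplit g) (hd : g.det = 1) (hn : ¬ HasDistinctEig g) :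
    ∃ α : k, α * α = 1 ∧ g.trace = 2 * α := by
  obtain ⟨α, β, h⟩ := hs
  have hαβ : α = β := by
    by_contra hne
    exact hn ⟨α, β, hne, h⟩
  subst hαβ
  obtain ⟨h1, h2⟩ := gdkd2_trace_det h
  refine ⟨α, ?_, ?_⟩
  · rw [← h2, hd]
  · rw [h1]; ring

/-- `g² = 2α g - 1` -/
theorem gdkd2_sq {g : M2 k} {α : k} (hd : g.det = 1) (ht : g.trace = 2 * α) :
    g * g = (2 * α) • g - 1 := by
  rw [gdkd2_cayley g, hd, ht, one_smul]

/-- `(g²)^p = 1` -/
theorem gdkd2_pow_p (p : ℕ) [Fact p.Prime] [CharP k p] {g : M2 k} {α : k} (hα : α * α = 1)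
    (hd : g.det = 1) (ht : g.trace = 2 * α) : (g * g) ^ p = 1 := by
  have hp : p.Prime := Fact.out
  have hsq := gdkd2_sq hd ht
  set n : M2 k := (2 * α) • g - (2 : k) • (1 : M2 k) with hn
  have e1 : g * g = 1 + n := by
    rw [hsq, hn]
    ext i j
    fin_cases i <;> fin_cases j <;> simp <;> ring
  have hnn : n * n = 0 := by
    have h4 : n * n = (4 * (α * α)) • (g * g) - (8 * α) • g + (4 : k) • (1 : M2 k) := by
      rw [hn]
      ext i j
      fin_cases i <;> fin_cases j <;>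
        simp [Matrix.mul_apply, Fin.sum_univ_two] <;> ring
    rw [h4, hα, hsq]
    ext i j
    fin_cases i <;> fin_cases j <;> simp <;> ring
  have hnp : n ^ p = 0 := by
    have h2 : 2 ≤ p := hp.two_le
    obtain ⟨c, hc⟩ := Nat.exists_eq_add_of_le h2
    rw [hc, pow_add, pow_two, hnn, zero_mul]
  have hcomm : Commute (1 : M2 k) n := Commute.one_left n
  rw [e1, add_pow_char_of_commute (p := p) hcomm, one_pow, hnp, add_zero]

/-- `Xset G` as an additive subgroup of `k` -/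
def gdkd2_X (G : Subgroup (GL (Fin 2) k)) : AddSubgroup k where
  carrier := Xset G
  zero_mem' := gbb_xset_zero G
  add_mem' := fun hx hy => gbb_xset_add hx hy
  neg_mem' := by
    intro x hx
    apply gbb_xset_of_mem
    have h1 : gbbU (-x) = (gbbU x)⁻¹ := by
      apply eq_inv_of_mul_eq_one_left
      rw [gbbU_mul, neg_add_cancel, gbbU_zero]
    rw [h1]
    exact G.inv_mem (gbb_mem_of_xset hx)

/-- `p` divides `q = |X|` as soon as `X ≠ 0` -/
theorem gdkd2_dvd_card (p : ℕ) [Fact p.Prime] [Finite k] [CharP k p]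
    (G : Subgroup (GL (Fin 2) k)) (h : ∃ g ∈ G, ∃ x : k, x ≠ 0 ∧ g.1 = uU x) :
    p ∣ Nat.card (Xset G) := by
  obtain ⟨g, hg, x, hx0, hgx⟩ := h
  have hx : x ∈ gdkd2_X G := ⟨g, hg, hgx⟩
  have h1 : addOrderOf (⟨x, hx⟩ : gdkd2_X G) = p := by
    apply addOrderOf_eq_prime
    · apply Subtype.ext
      rw [AddSubgroup.coe_nsmul, AddSubgroup.coe_zero, nsmul_eq_mul, CharP.cast_eq_zero k p,
        zero_mul]
    · intro h0
      exact hx0 (congrArg Subtype.val h0)
  have h2 : addOrderOf (⟨x, hx⟩ : gdkd2_X G) ∣ Nat.card (gdkd2_X G) := addOrderOf_dvd_natCard _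
  rw [h1] at h2
  exact h2

/-- an upper triangular matrix of determinant `1` and trace `2α`, `α² = 1`, has diagonal
`(α, α)` -/
theorem gdkd2_diag {w : M2 k} {α : k} (hα : α * α = 1) (h10 : w 1 0 = 0) (hd : w.det = 1)
    (ht : w.trace = 2 * α) : w 0 0 = α ∧ w 1 1 = α := by
  rw [Matrix.det_fin_two, h10, mul_zero, sub_zero] at hd
  rw [Matrix.trace_fin_two] at ht
  have e : w 1 1 = 2 * α - w 0 0 := by linear_combination ht
  have h : (w 0 0 - α) * (w 0 0 - α) = 0 := by
    rw [e] at hd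
    linear_combination hα - hd
  have h0 : w 0 0 = α := sub_eq_zero.mp (mul_self_eq_zero.mp h)
  refine ⟨h0, ?_⟩
  rw [e, h0]
  ring

/-- **DkD2**. -/
theorem stmtDkD2 : StmtDkD2 := by
  intro _ hC p _ k _ _ _ G hG g _ hnd
  have hp : p.Prime := Fact.out
  -- the shape of `g`
  have hdet : g.1.1.det = 1 := hG.det_one g.1 g.2
  obtain ⟨α, hα, htr⟩ := gdkd2_shape (hG.split g.1 g.2) hdet hnd
  -- the index of `B`
  obtain ⟨m, -, hcard⟩ := hC p k G hG
  set B : Subgroup ↥G := (dkBgl k).subgroupOf G with hB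
  have hidx : B.index = 1 + m * Nat.card (Xset G) := by
    have h1 := B.card_mul_index
    rw [hcard, mul_comm] at h1
    have hBpos : 0 < Nat.card B := Nat.card_pos
    exact Nat.eq_of_mul_eq_mul_right hBpos h1
  have hq : p ∣ Nat.card (Xset G) := gdkd2_dvd_card p G hG.uni
  have hnot : ¬ p ∣ Nat.card (↥G ⧸ B) := by
    rw [← Subgroup.index_eq_card, hidx]
    intro h
    have h2 : p ∣ m * Nat.card (Xset G) := Dvd.dvd.mul_left hq m
    have h3 : p ∣ 1 := (Nat.dvd_add_left h2).mp h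
    exact hp.one_lt.ne' (Nat.dvd_one.mp h3)
  -- the `p`-group generated by `g²`
  set h : ↥G := g * g with hh
  have hhp : h ^ p = 1 := by
    apply Subtype.ext
    apply Units.ext
    have := gdkd2_pow_p p hα hdet htr
    simpa [hh] using this
  have hP : IsPGroup p (Subgroup.zpowers h) := by
    intro y
    obtain ⟨n, hn⟩ := Subgroup.mem_zpowers_iff.mp y.2
    refine ⟨1, ?_⟩
    apply Subtype.ext
    rw [pow_one, Subgroup.coe_pow, ← hn, ← zpow_natCast, ← _root_.zpow_mul, mul_comm,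
      _root_.zpow_mul, zpow_natCast, hhp, _root_.one_zpow]
    rfl
  obtain ⟨c, hc⟩ := hP.nonempty_fixed_point_of_prime_not_dvd_card (↥G ⧸ B) hnot
  obtain ⟨x, rfl⟩ := QuotientGroup.mk_surjective c
  have hfix : (⟨h, Subgroup.mem_zpowers h⟩ : Subgroup.zpowers h) • (x : ↥G ⧸ B) =
      (x : ↥G ⧸ B) := hc _
  have hmem : x⁻¹ * h * x ∈ B := by
    have h1 : ((h * x : ↥G) : ↥G ⧸ B) = (x : ↥G ⧸ B) := hfix
    have h2 := QuotientGroup.eq.mp h1
    have h3 := B.inv_mem h2
    simpa [mul_assoc] using h3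
  refine ⟨x, ?_⟩
  set w : ↥G := x⁻¹ * g * x with hw
  have hww : w * w = x⁻¹ * h * x := by rw [hw, hh]; group
  rw [← hww] at hmem
  -- matrices
  have hWdet : w.1.1.det = 1 := hG.det_one w.1 w.2
  have hWtr : w.1.1.trace = 2 * α := by
    rw [← htr, hw]
    have e : ((x⁻¹ * g * x : ↥G) : GL (Fin 2) k).1 = (x⁻¹ : ↥G).1.1 * g.1.1 * x.1.1 := by
      simp
    rw [e, Matrix.trace_mul_comm, ← mul_assoc]
    have e2 : x.1.1 * (x⁻¹ : ↥G).1.1 = 1 := by
      simp
    rw [e2, one_mul]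
  have hsq := gdkd2_sq hWdet hWtr
  have h10' : (w.1.1 * w.1.1) 1 0 = 0 := by
    have : (w * w : ↥G).1 ∈ dkBgl k := Subgroup.mem_subgroupOf.mp hmem
    have h2 : ((w * w : ↥G).1).1 1 0 = 0 := this
    simpa using h2
  have h2ne : (2 : k) ≠ 0 := by
    intro h2
    have h3 : ((2 : ℕ) : k) = 0 := by exact_mod_cast h2
    have h4 : p ∣ 2 := (CharP.cast_eq_zero_iff k p 2).mp h3
    exact hG.odd ((Nat.prime_dvd_prime_iff_eq hp Nat.prime_two).mp h4)
  have hαne : α ≠ 0 := by
    rintro rfl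
    rw [mul_zero] at hα
    exact zero_ne_one hα
  have h10 : w.1.1 1 0 = 0 := by
    rw [hsq] at h10'
    have h3 : (2 * α) * w.1.1 1 0 = 0 := by simpa using h10'
    rcases mul_eq_zero.mp h3 with h4 | h4
    · exact absurd h4 (mul_ne_zero h2ne hαne)
    · exact h4
  obtain ⟨h00, h11⟩ := gdkd2_diag hα h10 hWdet hWtr
  have hα1 : α = 1 ∨ α = -1 := mul_self_eq_one_iff.mp hα
  rw [Subgroup.mem_subgroupOf]
  show w.1.1 1 0 = 0 ∧ w.1.1 0 0 = w.1.1 1 1 ∧ (w.1.1 0 0 = 1 ∨ w.1.1 0 0 = -1)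
  refine ⟨h10, by rw [h00, h11], ?_⟩
  rw [h00]
  exact hα1

end Fermat.Agent.TW.G.Dk
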